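/-
GATE-K / K5' Claim 2, part 2 (helper39): residue data and orthonormality for a FINITE FAMILY of
valuation subrings `W i ⊂ F` with common restriction `A ⊂ K` (sup-norm unit ball `⋂ i, W i`), with
an ABSTRACT reduction map `rd : F → κ` into a commutative `k`-algebra `κ` (in the application
`κ = ∏ i, κ i` or `κ₁ × κ₂`, `rd` = componentwise reduction, extended by zero).  This is the
multi-valuation twin of `GJ/J1/AbsCoreBasic.lean` + `AbsCoreSqueeze.lean` (helper56).

Mathlib + `GJ/J1/AbsCoreBasic.lean` (for `ResData`, `redF`, `piK`).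
-/
import Mathlib
import Fermat.Agent.GJ.J1.AbsCoreBasic

set_option autoImplicit false

namespace Fermat.Agent.GK.Lattice

open Module Fermat.Agent.GJ.J1.AbsCore

variable {K F : Type*} [Field K] [Field F] [Algebra K F]
variable {k κ : Type*} [Field k] [CommRing κ] [Algebra k κ]
variable {ι : Type*}

/-- Residue data for a family of valuation subrings `W i` of `F` over `A ⊂ K`: `π : A → k` is the
residue map of `A`; `rd : F → κ` is additive, multiplicative and `π`-semilinear on the sup-norm
unit ball `⋂ i, W i`, with kernel the open unit ball; every `W i` restricts to `A` and is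
unramified over `A`. -/
structure ResFam (A : ValuationSubring K) (W : ι → ValuationSubring F)
    (π : A →+* k) (rd : F → κ) : Prop where
  comap : ∀ i, (W i).comap (algebraMap K F) = A
  pi_surj : Function.Surjective π
  pi_ker : ∀ a : A, π a = 0 ↔ A.valuation (a : K) < 1
  unram : ∀ i, ∀ x : F, x ≠ 0 →
    ∃ c : K, c ≠ 0 ∧ (W i).valuation (x / algebraMap K F c) = 1
  rd_one : rd 1 = 1
  rd_add : ∀ x y : F, (∀ i, x ∈ W i) → (∀ i, y ∈ W i) → rd (x + y) = rd x + rd y
  rd_mul : ∀ x y : F, (∀ i, x ∈ W i) → (∀ i, y ∈ W i) → rd (x * y) = rd x * rd y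
  rd_smul : ∀ (c : K) (hc : c ∈ A) (x : F), (∀ i, x ∈ W i) → rd (c • x) = π ⟨c, hc⟩ • rd x
  rd_ker : ∀ x : F, (∀ i, x ∈ W i) → (rd x = 0 ↔ ∀ i, (W i).valuation x < 1)

/-- ORTH for a family: every finite-dimensional `K`-subspace of `F` has an orthonormal basis
w.r.t. the sup-norm unit ball `⋂ i, W i`. -/
def OrthFam (A : ValuationSubring K) (W : ι → ValuationSubring F) : Prop :=
  ∀ V : Submodule K F, FiniteDimensional K V →
    ∃ e : Fin (finrank K V) → F, (∀ j, e j ∈ V) ∧ (∀ j i, e j ∈ W i) ∧ LinearIndependent K e ∧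
      ∀ c : Fin (finrank K V) → K, (∀ i, ∑ j, c j • e j ∈ W i) → ∀ j, c j ∈ A

variable {A : ValuationSubring K} {W : ι → ValuationSubring F} {π : A →+* k} {rd : F → κ}

/-- The componentwise reduction of a family of `ResData` (J1) is a `ResFam`. -/
theorem ResFam.of_resData {κf : ι → Type*} [∀ i, Field (κf i)] [∀ i, Algebra k (κf i)]
    {red : ∀ i, W i →+* κf i} (h : ∀ i, ResData A (W i) π (red i)) (hπ : Function.Surjective π)
    (hker : ∀ a : A, π a = 0 ↔ A.valuation (a : K) < 1) :
    ResFam A W π (fun x => (fun i => redF (red i) x : ∀ i, κf i)) where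
  comap := fun i => (h i).comap
  pi_surj := hπ
  pi_ker := hker
  unram := fun i => (h i).unram
  rd_one := by
    funext i
    exact redF_one
  rd_add := by
    intro x y hx hy
    funext i
    exact redF_add (hx i) (hy i)
  rd_mul := by
    intro x y hx hy
    funext i
    exact redF_mul (hx i) (hy i)
  rd_smul := by
    intro c hc x hx
    funext i
    rw [Pi.smul_apply, (h i).redF_smul hc (hx i), piK_of_mem hc]
  rd_ker := by
    intro x hx
    rw [funext_iff]
    exact forall_congr' fun i => (h i).redF_eq_zero_iff (hx i)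

namespace ResFam

variable (h : ResFam A W π rd)
include h

theorem algebraMap_mem_iff (i : ι) (c : K) : algebraMap K F c ∈ W i ↔ c ∈ A := by
  rw [← h.comap i]; exact Iff.rfl

theorem val_le_one_iff (i : ι) (c : K) :
    (W i).valuation (algebraMap K F c) ≤ 1 ↔ A.valuation c ≤ 1 := by
  rw [ValuationSubring.valuation_le_one_iff, ValuationSubring.valuation_le_one_iff]
  exact h.algebraMap_mem_iff i c

theorem val_lt_one_iff (i : ι) (c : K) :
    (W i).valuation (algebraMap K F c) < 1 ↔ A.valuation c < 1 := by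
  by_cases hc : c = 0
  · subst hc; simp
  · have h1 := h.val_le_one_iff i c⁻¹
    rw [map_inv₀, map_inv₀, map_inv₀] at h1
    have hcF : (W i).valuation (algebraMap K F c) ≠ 0 := by
      rw [ne_eq, map_eq_zero, map_eq_zero]; exact hc
    have hcK : A.valuation c ≠ 0 := by rw [ne_eq, map_eq_zero]; exact hc
    rw [← not_le, ← not_le, not_iff_not]
    rw [inv_le_one₀ (zero_lt_iff.mpr hcF), inv_le_one₀ (zero_lt_iff.mpr hcK)] at h1
    exact h1

/-- `c • x ∈ ⋂ W i` for `c ∈ A`, `x ∈ ⋂ W i`. -/
theorem smul_mem {c : K} (hc : c ∈ A) {x : F} (hx : ∀ i, x ∈ W i) : ∀ i, c • x ∈ W i := by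
  intro i
  rw [Algebra.smul_def]
  exact (W i).mul_mem _ _ ((h.algebraMap_mem_iff i c).2 hc) (hx i)

theorem rd_zero : rd 0 = 0 := by
  have := h.rd_add 0 0 (fun i => (W i).zero_mem) (fun i => (W i).zero_mem)
  rw [add_zero] at this
  exact left_eq_add.mp this

theorem rd_neg {x : F} (hx : ∀ i, x ∈ W i) : rd (-x) = - rd x := by
  have := h.rd_add x (-x) hx (fun i => (W i).neg_mem _ (hx i))
  rw [add_neg_cancel, h.rd_zero] at this
  exact (neg_eq_of_add_eq_zero_right this.symm).symm

theorem rd_sub {x y : F} (hx : ∀ i, x ∈ W i) (hy : ∀ i, y ∈ W i) :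
    rd (x - y) = rd x - rd y := by
  rw [sub_eq_add_neg, h.rd_add x (-y) hx (fun i => (W i).neg_mem _ (hy i)), h.rd_neg hy,
    sub_eq_add_neg]

omit h in
theorem sum_mem_fam {J : Type*} (s : Finset J) (x : J → F) (hx : ∀ j ∈ s, ∀ i, x j ∈ W i) :
    ∀ i, ∑ j ∈ s, x j ∈ W i := fun i => sum_mem fun j hj => hx j hj i

theorem rd_sum {J : Type*} (s : Finset J) (x : J → F) (hx : ∀ j ∈ s, ∀ i, x j ∈ W i) :
    rd (∑ j ∈ s, x j) = ∑ j ∈ s, rd (x j) := by
  classical
  induction s using Finset.induction_on with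
  | empty => simp [h.rd_zero]
  | insert a s ha ih =>
    rw [Finset.sum_insert ha, Finset.sum_insert ha,
      h.rd_add _ _ (hx a (Finset.mem_insert_self a s))
        (sum_mem_fam s x fun j hj => hx j (Finset.mem_insert_of_mem hj)),
      ih fun j hj => hx j (Finset.mem_insert_of_mem hj)]

theorem rd_eq_zero_iff {x : F} (hx : ∀ i, x ∈ W i) :
    rd x = 0 ↔ ∀ i, (W i).valuation x < 1 := h.rd_ker x hx

theorem piK_eq_zero_iff {c : K} (hc : c ∈ A) : piK π c = 0 ↔ A.valuation c < 1 := by
  rw [piK_of_mem hc]; exact h.pi_ker ⟨c, hc⟩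

theorem rd_smul' {c : K} (hc : c ∈ A) {x : F} (hx : ∀ i, x ∈ W i) :
    rd (c • x) = piK π c • rd x := by
  rw [piK_of_mem hc]
  exact h.rd_smul c hc x hx

theorem piK_surj (a : k) : ∃ c : K, c ∈ A ∧ piK π c = a := by
  obtain ⟨c, rfl⟩ := h.pi_surj a
  exact ⟨c, c.2, by rw [piK_of_mem c.2]⟩

theorem rd_sum_smul {J : Type*} (s : Finset J) (c : J → K) (f : J → F)
    (hc : ∀ j ∈ s, c j ∈ A) (hf : ∀ j ∈ s, ∀ i, f j ∈ W i) :
    rd (∑ j ∈ s, c j • f j) = ∑ j ∈ s, piK π (c j) • rd (f j) := by
  rw [h.rd_sum s _ fun j hj => h.smul_mem (hc j hj) (hf j hj)]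
  exact Finset.sum_congr rfl fun j hj => h.rd_smul' (hc j hj) (hf j hj)

theorem sum_smul_mem {J : Type*} (s : Finset J) (c : J → K) (f : J → F)
    (hc : ∀ j ∈ s, c j ∈ A) (hf : ∀ j ∈ s, ∀ i, f j ∈ W i) :
    ∀ i, ∑ j ∈ s, c j • f j ∈ W i :=
  sum_mem_fam s _ fun j hj => h.smul_mem (hc j hj) (hf j hj)

/-- `rd x = 1` forces `x ≡ 1` for every valuation. -/
theorem val_sub_one_lt_of_rd_eq_one {x : F} (hx : ∀ i, x ∈ W i) (h1 : rd x = 1) :
    ∀ i, (W i).valuation (x - 1) < 1 := by
  rw [← h.rd_eq_zero_iff (fun i => sub_mem (hx i) (W i).one_mem),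
    h.rd_sub hx (fun i => (W i).one_mem), h1, h.rd_one, sub_self]

/-- **Core orthonormality lemma.** If the reductions of the `f j ∈ ⋂ W i` are `k`-linearly
independent and `a j ∈ A`, then `w_i(∑ a j • f j) < 1` for all `i` forces `v(a j) < 1` for
all `j`. -/
theorem val_lt_one_of_sum {J : Type*} [Fintype J] (f : J → F) (hf : ∀ j i, f j ∈ W i)
    (hli : LinearIndependent k (fun j => rd (f j))) (a : J → K) (ha : ∀ j, a j ∈ A)
    (hsum : ∀ i, (W i).valuation (∑ j, a j • f j) < 1) : ∀ j, A.valuation (a j) < 1 := by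
  have hmem : ∀ i, ∑ j, a j • f j ∈ W i :=
    h.sum_smul_mem _ a f (fun j _ => ha j) (fun j _ => hf j)
  have h0 : rd (∑ j, a j • f j) = 0 := (h.rd_eq_zero_iff hmem).2 hsum
  rw [h.rd_sum_smul _ a f (fun j _ => ha j) (fun j _ => hf j)] at h0
  have := Fintype.linearIndependent_iff.1 hli (fun j => piK π (a j)) h0
  intro j
  exact (h.piK_eq_zero_iff (ha j)).1 (this j)

/-- If the reductions of the `f j ∈ ⋂ W i` are `k`-linearly independent, then
`∑ c j • f j ∈ ⋂ W i` forces all `c j ∈ A`. -/
theorem coeff_mem_of_sum_mem {J : Type*} [Fintype J] (f : J → F) (hf : ∀ j i, f j ∈ W i)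
    (hli : LinearIndependent k (fun j => rd (f j))) (c : J → K)
    (hsum : ∀ i, ∑ j, c j • f j ∈ W i) : ∀ j, c j ∈ A := by
  classical
  by_contra hcon
  push Not at hcon
  obtain ⟨j, hj⟩ := hcon
  have : Nonempty J := ⟨j⟩
  obtain ⟨j₀, -, hmax⟩ := Finset.exists_max_image Finset.univ (fun j => A.valuation (c j))
    Finset.univ_nonempty
  have hj₀ : 1 < A.valuation (c j₀) := by
    have h1 : ¬ A.valuation (c j) ≤ 1 := by
      rw [ValuationSubring.valuation_le_one_iff]; exact hj
    exact lt_of_lt_of_le (not_le.1 h1) (hmax j (Finset.mem_univ j))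
  have hc0 : c j₀ ≠ 0 := by
    intro h0; rw [h0, map_zero] at hj₀; exact not_lt.2 zero_le hj₀
  set a : J → K := fun j => c j / c j₀ with ha_def
  have ha : ∀ j, a j ∈ A := by
    intro j
    rw [← ValuationSubring.valuation_le_one_iff, ha_def, map_div₀]
    exact div_le_one_of_le₀ (hmax j (Finset.mem_univ j)) zero_le
  have hsum' : ∑ j, a j • f j = (c j₀)⁻¹ • ∑ j, c j • f j := by
    rw [Finset.smul_sum]
    refine Finset.sum_congr rfl fun j _ => ?_
    rw [smul_smul, ha_def]; congr 1; field_simp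
  have hval : ∀ i, (W i).valuation (∑ j, a j • f j) < 1 := by
    intro i
    rw [hsum', Algebra.smul_def, map_mul]
    have h1 : (W i).valuation (algebraMap K F (c j₀)⁻¹) < 1 := by
      rw [h.val_lt_one_iff, map_inv₀]
      exact inv_lt_one_of_one_lt₀ hj₀
    have h2 : (W i).valuation (∑ j, c j • f j) ≤ 1 :=
      (ValuationSubring.valuation_le_one_iff _ _).2 (hsum i)
    calc _ ≤ (W i).valuation (algebraMap K F (c j₀)⁻¹) * 1 := by gcongr
      _ < 1 := by rwa [mul_one]
  have := h.val_lt_one_of_sum f hf hli a ha hval j₀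
  rw [ha_def] at this
  simp only [div_self hc0, map_one, lt_self_iff_false] at this

/-- If the reductions of the `f j ∈ ⋂ W i` are `k`-linearly independent, the `f j` are
`K`-linearly independent. -/
theorem linearIndependent_of_rd {J : Type*} [Fintype J] (f : J → F) (hf : ∀ j i, f j ∈ W i)
    (hli : LinearIndependent k (fun j => rd (f j))) : LinearIndependent K f := by
  classical
  rw [Fintype.linearIndependent_iff]
  intro c hsum
  by_contra hcon
  push Not at hcon
  obtain ⟨j, hj⟩ := hcon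
  have : Nonempty J := ⟨j⟩
  obtain ⟨j₀, -, hmax⟩ := Finset.exists_max_image Finset.univ (fun j => A.valuation (c j))
    Finset.univ_nonempty
  have hc0 : c j₀ ≠ 0 := by
    intro h0
    have := hmax j (Finset.mem_univ j)
    rw [h0, map_zero, le_zero_iff, map_eq_zero] at this
    exact hj this
  set a : J → K := fun j => c j / c j₀ with ha_def
  have ha : ∀ j, a j ∈ A := by
    intro j
    rw [← ValuationSubring.valuation_le_one_iff, ha_def, map_div₀]
    exact div_le_one_of_le₀ (hmax j (Finset.mem_univ j)) zero_le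
  have hsum' : ∑ j, a j • f j = (c j₀)⁻¹ • ∑ j, c j • f j := by
    rw [Finset.smul_sum]
    refine Finset.sum_congr rfl fun j _ => ?_
    rw [smul_smul, ha_def]; congr 1; field_simp
  have hval : ∀ i, (W i).valuation (∑ j, a j • f j) < 1 := by
    intro i
    rw [hsum', hsum, smul_zero, map_zero]; exact zero_lt_one
  have := h.val_lt_one_of_sum f hf hli a ha hval j₀
  rw [ha_def] at this
  simp only [div_self hc0, map_one, lt_self_iff_false] at this

/-- sup-norm unramifiedness: a nonzero `x` in the open unit ball can be divided by a nonunit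
constant of `A` and stay in the closed unit ball. -/
theorem exists_div_mem [Finite ι] [Nonempty ι] {x : F} (hx0 : x ≠ 0)
    (hx : ∀ i, (W i).valuation x < 1) :
    ∃ c : K, c ≠ 0 ∧ A.valuation c < 1 ∧ ∀ i, x / algebraMap K F c ∈ W i := by
  classical
  cases nonempty_fintype ι
  choose c hc0 hc using fun i => h.unram i x hx0
  have hcF : ∀ i, (W i).valuation (algebraMap K F (c i)) ≠ 0 := by
    intro i
    rw [ne_eq, map_eq_zero, map_eq_zero]; exact hc0 i
  have hcx : ∀ i, (W i).valuation x = (W i).valuation (algebraMap K F (c i)) := by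
    intro i
    have := hc i
    rwa [map_div₀, div_eq_one_iff_eq (hcF i)] at this
  obtain ⟨i₀, -, hmax⟩ := Finset.exists_max_image Finset.univ (fun i => A.valuation (c i))
    Finset.univ_nonempty
  refine ⟨c i₀, hc0 i₀, ?_, fun i => ?_⟩
  · rw [← h.val_lt_one_iff i₀, ← hcx i₀]; exact hx i₀
  · have h1 : x / algebraMap K F (c i₀) =
        (x / algebraMap K F (c i)) * algebraMap K F (c i / c i₀) := by
      have h2 : algebraMap K F (c i) ≠ 0 := by rw [ne_eq, map_eq_zero]; exact hc0 i
      have h3 : algebraMap K F (c i₀) ≠ 0 := by rw [ne_eq, map_eq_zero]; exact hc0 i₀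
      rw [map_div₀]; field_simp
    rw [h1]
    refine (W i).mul_mem _ _ ?_ ?_
    · exact (ValuationSubring.valuation_le_one_iff _ _).1 (hc i).le
    · rw [h.algebraMap_mem_iff, ← ValuationSubring.valuation_le_one_iff, map_div₀]
      exact div_le_one_of_le₀ (hmax i (Finset.mem_univ i)) zero_le

/-- The reductions of an orthonormal family are linearly independent over `k`. -/
theorem rd_indep_of_orth [Finite ι] [Nonempty ι] {J : Type*} [Fintype J] (e : J → F)
    (he : ∀ j i, e j ∈ W i) (hli : LinearIndependent K e)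
    (horth : ∀ c : J → K, (∀ i, ∑ j, c j • e j ∈ W i) → ∀ j, c j ∈ A) :
    LinearIndependent k (fun j => rd (e j)) := by
  classical
  rw [Fintype.linearIndependent_iff]
  intro g hg
  choose c hcA hcg using fun j => h.piK_surj (g j)
  have hxmem : ∀ i, ∑ j, c j • e j ∈ W i :=
    h.sum_smul_mem _ c e (fun j _ => hcA j) (fun j _ => he j)
  have hx0 : rd (∑ j, c j • e j) = 0 := by
    rw [h.rd_sum_smul _ c e (fun j _ => hcA j) (fun j _ => he j)]
    simpa [hcg] using hg
  have hxval : ∀ i, (W i).valuation (∑ j, c j • e j) < 1 := (h.rd_eq_zero_iff hxmem).1 hx0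
  intro j
  rw [← hcg j, h.piK_eq_zero_iff (hcA j)]
  by_cases hx : ∑ j, c j • e j = 0
  · have := Fintype.linearIndependent_iff.1 hli c hx j
    rw [this, map_zero]; exact zero_lt_one
  · obtain ⟨c', hc'0, hvc', hmem⟩ := h.exists_div_mem hx hxval
    have hc'F : algebraMap K F c' ≠ 0 := by
      rw [ne_eq, map_eq_zero]; exact hc'0
    have hmem' : ∀ i, ∑ j, (c j / c') • e j ∈ W i := by
      intro i
      have : ∑ j, (c j / c') • e j = (∑ j, c j • e j) / algebraMap K F c' := by
        rw [Finset.sum_div]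
        refine Finset.sum_congr rfl fun j _ => ?_
        rw [Algebra.smul_def, Algebra.smul_def, map_div₀]; field_simp
      rw [this]
      exact hmem i
    have hj := horth _ hmem' j
    rw [← ValuationSubring.valuation_le_one_iff, map_div₀] at hj
    have hc'pos : 0 < A.valuation c' := by
      rw [zero_lt_iff, ne_eq, map_eq_zero]; exact hc'0
    rw [div_le_one₀ hc'pos] at hj
    exact lt_of_le_of_lt hj hvc'

/-- **Dimension squeeze.** If the reduction of the unit ball of `V` lands in `M` and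
`dim_k M ≤ dim_K V`, then the dimensions agree and the reduction is onto `M`. -/
theorem squeeze [Finite ι] [Nonempty ι] (horth : OrthFam A W) (V : Submodule K F)
    [FiniteDimensional K V] (M : Submodule k κ) [FiniteDimensional k M]
    (hred : ∀ x ∈ V, (∀ i, x ∈ W i) → rd x ∈ M) (hdim : finrank k M ≤ finrank K V) :
    finrank k M = finrank K V ∧ ∀ ξ ∈ M, ∃ x ∈ V, (∀ i, x ∈ W i) ∧ rd x = ξ := by
  classical
  obtain ⟨e, heV, heO, hli, ho⟩ := horth V inferInstance
  have hliκ := h.rd_indep_of_orth e heO hli ho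
  have hvM : ∀ j, rd (e j) ∈ M := fun j => hred _ (heV j) (heO j)
  have hliM : LinearIndependent k (fun j => (⟨rd (e j), hvM j⟩ : M)) :=
    LinearIndependent.of_comp M.subtype hliκ
  have hcard := hliM.fintype_card_le_finrank
  rw [Fintype.card_fin] at hcard
  have heq : finrank k M = finrank K V := le_antisymm hdim hcard
  refine ⟨heq, fun ξ hξ => ?_⟩
  have hspan : Submodule.span k (Set.range fun j => (⟨rd (e j), hvM j⟩ : M)) = ⊤ :=
    hliM.span_eq_top_of_card_eq_finrank' (by rw [Fintype.card_fin, heq])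
  have hmem : (⟨ξ, hξ⟩ : M) ∈ Submodule.span k
      (Set.range fun j => (⟨rd (e j), hvM j⟩ : M)) := by rw [hspan]; trivial
  obtain ⟨g, hg⟩ := (Submodule.mem_span_range_iff_exists_fun k).1 hmem
  choose c hcA hcg using fun j => h.piK_surj (g j)
  refine ⟨∑ j, c j • e j, V.sum_mem fun j _ => V.smul_mem _ (heV j),
    h.sum_smul_mem _ c e (fun j _ => hcA j) (fun j _ => heO j), ?_⟩
  rw [h.rd_sum_smul _ c e (fun j _ => hcA j) (fun j _ => heO j)]
  have := congrArg (M.subtype) hg
  simp only [map_sum, map_smul, Submodule.subtype_apply] at this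
  rw [← this]
  exact Finset.sum_congr rfl fun j _ => by rw [hcg j]

/-- the reduction of the unit ball of a finite-dimensional `V` has the dimension of `V`:
an orthonormal basis reduces to a `k`-independent family in `rd (V ∩ ⋂ W i)` -/
theorem exists_rd_indep [Finite ι] [Nonempty ι] (horth : OrthFam A W) (V : Submodule K F)
    [FiniteDimensional K V] :
    ∃ e : Fin (finrank K V) → F, (∀ j, e j ∈ V) ∧ (∀ j i, e j ∈ W i) ∧
      LinearIndependent k (fun j => rd (e j)) ∧
      ∀ x ∈ V, (∀ i, x ∈ W i) → ∃ c : Fin (finrank K V) → K, (∀ j, c j ∈ A) ∧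
        x = ∑ j, c j • e j := by
  classical
  obtain ⟨e, heV, heO, hli, ho⟩ := horth V inferInstance
  refine ⟨e, heV, heO, h.rd_indep_of_orth e heO hli ho, fun x hxV hxO => ?_⟩
  have hliV : LinearIndependent K (fun j => (⟨e j, heV j⟩ : V)) :=
    LinearIndependent.of_comp V.subtype hli
  have hspan := hliV.span_eq_top_of_card_eq_finrank' (by rw [Fintype.card_fin])
  have hmem : (⟨x, hxV⟩ : V) ∈ Submodule.span K (Set.range fun j => (⟨e j, heV j⟩ : V)) := by
    rw [hspan]; trivial
  obtain ⟨cf, hcf⟩ := (Submodule.mem_span_range_iff_exists_fun K).1 hmem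
  have hx' : x = ∑ j, cf j • e j := by
    have := congrArg V.subtype hcf
    simp only [map_sum, map_smul, Submodule.subtype_apply] at this
    exact this.symm
  exact ⟨cf, ho cf (by rw [← hx']; exact hxO), hx'⟩

theorem exists_denominator [Finite ι] (y : F) :
    ∃ c : K, c ≠ 0 ∧ c ∈ A ∧ ∀ i, c • y ∈ W i := by
  classical
  cases nonempty_fintype ι
  by_cases hy : y = 0
  · exact ⟨1, one_ne_zero, A.one_mem, fun i => by simp [hy, (W i).zero_mem]⟩
  · have key : ∀ i, ∃ c : K, c ≠ 0 ∧ c ∈ A ∧ c • y ∈ W i := by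
      intro i
      obtain ⟨γ, hγ0, hγ⟩ := h.unram i y hy
      have hγF : algebraMap K F γ ≠ 0 := by rw [ne_eq, map_eq_zero]; exact hγ0
      have hunit : y / algebraMap K F γ ∈ W i :=
        (ValuationSubring.valuation_le_one_iff _ _).1 hγ.le
      by_cases hγA : γ ∈ A
      · refine ⟨1, one_ne_zero, A.one_mem, ?_⟩
        rw [one_smul]
        have : y = algebraMap K F γ * (y / algebraMap K F γ) := by field_simp
        rw [this]
        exact (W i).mul_mem _ _ ((h.algebraMap_mem_iff i γ).2 hγA) hunit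
      · refine ⟨γ⁻¹, inv_ne_zero hγ0, (A.mem_or_inv_mem γ).resolve_left hγA, ?_⟩
        have : γ⁻¹ • y = y / algebraMap K F γ := by
          rw [Algebra.smul_def, map_inv₀]; field_simp
        rw [this]; exact hunit
    choose c hc0 hcA hc using key
    refine ⟨∏ i, c i, Finset.prod_ne_zero_iff.2 fun i _ => hc0 i,
      Subring.prod_mem _ fun i _ => hcA i, fun i => ?_⟩
    have : (∏ j, c j) • y = (∏ j ∈ Finset.univ.erase i, c j) • (c i • y) := by
      rw [smul_smul, Finset.prod_erase_mul _ _ (Finset.mem_univ i)]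
    rw [this, Algebra.smul_def]
    exact (W i).mul_mem _ _ ((h.algebraMap_mem_iff i _).2
      (Subring.prod_mem _ fun j _ => hcA j)) (hc i)

theorem exists_common_denominator [Finite ι] {J : Type*} (s : Finset J) (y : J → F) :
    ∃ c : K, c ≠ 0 ∧ c ∈ A ∧ ∀ j ∈ s, ∀ i, c • y j ∈ W i := by
  classical
  induction s using Finset.induction_on with
  | empty => exact ⟨1, one_ne_zero, A.one_mem, by simp⟩
  | insert a s _ ih =>
    obtain ⟨c, hc0, hcA, hc⟩ := ih
    obtain ⟨c', hc'0, hc'A, hc'⟩ := h.exists_denominator (y a)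
    refine ⟨c * c', mul_ne_zero hc0 hc'0, A.mul_mem _ _ hcA hc'A, fun j hj => ?_⟩
    rcases Finset.mem_insert.1 hj with rfl | hj
    · rw [mul_smul]; exact h.smul_mem hcA hc'
    · rw [mul_comm, mul_smul]; exact h.smul_mem hc'A (hc j hj)

end ResFam

end Fermat.Agent.GK.Lattice
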