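/-
GATE-K / K5' Claim 2, part 1 (helper39): the TWO-CHART LEMMA for a FINITE FAMILY of valuation
subrings `W i ⊂ F` with common restriction `A ⊂ K` (the components of a semistable special fibre;
used with `ι = Fin 2`).  It is `Fermat.Agent.GJ.Lattice.twoChart` with the unit ball `Ow` replaced
by the sup-norm unit ball `⋂ i, W i`; the proof is the same, valuation by valuation.

`import Mathlib` + the frozen `GJ/Lattice/TwoChart.lean` (Newton approximation `tc_newton`,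
`tc_one_mul`, `tc_one_pow`, `tc_val_eq_one`).
-/
import Mathlib
import Fermat.Agent.GJ.Lattice.TwoChart

set_option autoImplicit false

namespace Fermat.Agent.GK.Lattice

open Fermat.Agent.GJ.Lattice

variable {K F : Type*} [Field K] [Field F] [Algebra K F]

/-- the sup-norm unit ball `⋂ i, W i` of a family of valuation subrings -/
def supBall {ι : Type*} (W : ι → ValuationSubring F) : Subring F := ⨅ i, (W i).toSubring

theorem mem_supBall {ι : Type*} {W : ι → ValuationSubring F} {x : F} :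
    x ∈ supBall W ↔ ∀ i, x ∈ W i := by
  unfold supBall
  rw [Subring.mem_iInf]
  exact Iff.rfl

/-- the elements of an increasing multiplicative family of subspaces lying in a subring `S`
form a subring -/
def ballSubringOn (S : Subring F) (L : ℕ → Submodule K F) (hmono : Monotone L)
    (hone : (1 : F) ∈ L 0) (hmul : ∀ a b, ∀ x ∈ L a, ∀ y ∈ L b, x * y ∈ L (a + b)) :
    Subring F where
  carrier := {x | ∃ n, x ∈ L n ∧ x ∈ S}
  mul_mem' := by
    rintro x y ⟨a, hxa, hx⟩ ⟨b, hyb, hy⟩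
    exact ⟨a + b, hmul a b x hxa y hyb, S.mul_mem hx hy⟩
  one_mem' := ⟨0, hone, S.one_mem⟩
  add_mem' := by
    rintro x y ⟨a, hxa, hx⟩ ⟨b, hyb, hy⟩
    exact ⟨max a b, add_mem (hmono (le_max_left a b) hxa) (hmono (le_max_right a b) hyb),
      S.add_mem hx hy⟩
  zero_mem' := ⟨0, zero_mem _, S.zero_mem⟩
  neg_mem' := by
    rintro x ⟨a, hxa, hx⟩
    exact ⟨a, neg_mem hxa, S.neg_mem hx⟩

theorem mem_ballSubringOn {S : Subring F} {L : ℕ → Submodule K F} {hmono : Monotone L}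
    {hone : (1 : F) ∈ L 0} {hmul : ∀ a b, ∀ x ∈ L a, ∀ y ∈ L b, x * y ∈ L (a + b)} {x : F} :
    x ∈ ballSubringOn S L hmono hone hmul ↔ ∃ n, x ∈ L n ∧ x ∈ S := Iff.rfl

set_option linter.unusedVariables false in
/-- **The two-chart lemma for a finite family of valuations** (Claim 2 of report 202, abstract
form).  `A ⊂ K`, `W i ⊂ F` valuation subrings with `W i ∩ K = A`, `A` of rank one, every `W i`
unramified over `A`.  Increasing families `L1 n = L(nE1)`, `L20 n = L(nE2)`, `L2 n = L(D + nE2)`,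
`L12 n = L(nE1 + nE2)`.  Given bounded torsion of `B12/(B1 + B2)` for the sup-norm unit balls,
`u ≡ 1` (for every `W i`) with poles in `E1` and `β ≡ 1` (for every `W i`) in `L2` with
`β^m u ∈ L20`, some `L1 n ⊓ L2 n'` is nonzero (i.e. `L(D) ≠ 0`). -/
theorem twoChartFam {ι : Type*} [Finite ι] [Nonempty ι]
    (A : ValuationSubring K) (W : ι → ValuationSubring F)
    (hcomap : ∀ i, (W i).comap (algebraMap K F) = A)
    (hrank1 : ∀ x c : K, x ∈ A → A.valuation x < 1 → c ≠ 0 →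
      ∃ n : ℕ, A.valuation (x ^ n) ≤ A.valuation c)
    (hunram : ∀ i, ∀ x : F, x ≠ 0 →
      ∃ c : K, c ≠ 0 ∧ (W i).valuation (x / algebraMap K F c) = 1)
    (m : ℕ) (hm : ∀ i, (W i).valuation (m : F) = 1)
    (L1 L2 L20 L12 : ℕ → Submodule K F)
    (mono1 : Monotone L1) (mono2 : Monotone L2) (mono20 : Monotone L20) (mono12 : Monotone L12)
    (h1 : ∀ n, L1 n ≤ L12 n) (h2 : ∀ n, L2 n ≤ L12 n) (h20 : ∀ n, L20 n ≤ L12 n)
    (one1 : (1 : F) ∈ L1 0) (one20 : (1 : F) ∈ L20 0)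
    (mul1 : ∀ a b, ∀ x ∈ L1 a, ∀ y ∈ L1 b, x * y ∈ L1 (a + b))
    (mul20 : ∀ a b, ∀ x ∈ L20 a, ∀ y ∈ L20 b, x * y ∈ L20 (a + b))
    (mul2 : ∀ a b, ∀ x ∈ L20 a, ∀ y ∈ L2 b, x * y ∈ L2 (a + b))
    (hBT : ∃ c0 : K, c0 ≠ 0 ∧ c0 ∈ A ∧ ∀ x : F, (∃ n, x ∈ L12 n ∧ ∀ i, x ∈ W i) →
      ∀ c : K, c ≠ 0 → c ∈ A →
      (∃ y1 : F, (∃ n, y1 ∈ L1 n ∧ ∀ i, y1 ∈ W i) ∧
        ∃ y2 : F, (∃ n, y2 ∈ L2 n ∧ ∀ i, y2 ∈ W i) ∧ c • x = y1 + y2) →
      ∃ z1 : F, (∃ n, z1 ∈ L1 n ∧ ∀ i, z1 ∈ W i) ∧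
        ∃ z2 : F, (∃ n, z2 ∈ L2 n ∧ ∀ i, z2 ∈ W i) ∧ c0 • x = z1 + z2)
    (u : F) (n1 : ℕ) (hu1 : u - 1 ∈ L1 n1) (hu : ∀ i, (W i).valuation (u - 1) < 1)
    (β : F) (n2 : ℕ) (hβ2 : β ∈ L2 n2) (hβ : ∀ i, (W i).valuation (β - 1) < 1)
    (hβu : β ^ m * u ∈ L20 (m * n2)) :
    ∃ n n' : ℕ, ∃ x : F, x ≠ 0 ∧ x ∈ L1 n ∧ x ∈ L2 n' := by
  classical
  cases nonempty_fintype ι
  obtain ⟨c0, hc0, hc0A, hBT⟩ := hBT
  have hOw : ∀ i, ∀ x : F, x ∈ W i ↔ (W i).valuation x ≤ 1 :=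
    fun i x => ((W i).valuation_le_one_iff x).symm
  -- comparison of the valuations on `K`
  have hEq : ∀ i, A.valuation.IsEquiv ((W i).valuation.comap (algebraMap K F)) := by
    intro i
    rw [Valuation.isEquiv_iff_val_le_one]
    intro x
    rw [A.valuation_le_one_iff, Valuation.comap_apply, (W i).valuation_le_one_iff, ← hcomap i,
      ValuationSubring.mem_comap]
  have hle : ∀ i, ∀ a b : K, A.valuation a ≤ A.valuation b ↔
      (W i).valuation (algebraMap K F a) ≤ (W i).valuation (algebraMap K F b) :=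
    fun i a b => hEq i a b
  have hlt1 : ∀ i, ∀ a : K, A.valuation a < 1 ↔ (W i).valuation (algebraMap K F a) < 1 :=
    fun i a => Valuation.isEquiv_iff_val_lt_one.mp (hEq i)
  have hmemA : ∀ i, ∀ a : K, a ∈ A ↔ algebraMap K F a ∈ W i := by
    intro i a
    rw [← hcomap i, ValuationSubring.mem_comap]
  have hvne : ∀ i, ∀ a : K, a ≠ 0 → (W i).valuation (algebraMap K F a) ≠ 0 := by
    intro i a ha
    rw [Valuation.ne_zero_iff]
    exact (map_ne_zero _).mpr ha
  -- the trivial case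
  by_cases htriv : u - 1 = 0 ∧ β - 1 = 0
  · refine ⟨0, n2, 1, one_ne_zero, one1, ?_⟩
    rw [← sub_eq_zero.mp htriv.2]
    exact hβ2
  -- a nonzero nonunit `π` of `A`
  obtain ⟨π, hπ0, hπA1⟩ : ∃ π : K, π ≠ 0 ∧ A.valuation π < 1 := by
    set i0 : ι := Classical.arbitrary ι
    have : ∃ y : F, y ≠ 0 ∧ (W i0).valuation y < 1 := by
      by_cases h : u - 1 = 0
      · exact ⟨β - 1, fun h' => htriv ⟨h, h'⟩, hβ i0⟩
      · exact ⟨u - 1, h, hu i0⟩
    obtain ⟨y, hy0, hy1⟩ := this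
    obtain ⟨π, hπ0, hπ⟩ := hunram i0 y hy0
    refine ⟨π, hπ0, (hlt1 i0 π).mpr ?_⟩
    rw [map_div₀, div_eq_one_iff_eq (hvne i0 π hπ0)] at hπ
    rw [← hπ]
    exact hy1
  have hπ1 : ∀ i, (W i).valuation (algebraMap K F π) < 1 := fun i => (hlt1 i π).mp hπA1
  have hπA : π ∈ A := (A.valuation_le_one_iff π).mp hπA1.le
  -- the constant `c`
  set c : K := c0 * π with hc
  have hc_ne : c ≠ 0 := mul_ne_zero hc0 hπ0
  have hcA : c ∈ A := A.mul_mem _ _ hc0A hπA
  have hvc : ∀ i, (W i).valuation (algebraMap K F c) < (W i).valuation (algebraMap K F c0) := by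
    intro i
    rw [hc, map_mul, map_mul]
    have := mul_lt_mul_of_pos_left (hπ1 i) (zero_lt_iff.mpr (hvne i c0 hc0))
    rwa [mul_one] at this
  -- rank one, transferred to `F`, one valuation at a time
  have hrk1 : ∀ i, ∀ y : F, (W i).valuation y < 1 →
      ∃ N : ℕ, ∀ n, N ≤ n → (W i).valuation y ^ n ≤ (W i).valuation (algebraMap K F c) := by
    intro i y hy1
    by_cases hy0 : y = 0
    · refine ⟨1, fun n hn => ?_⟩
      rw [hy0, map_zero, zero_pow (by omega)]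
      exact zero_le
    · obtain ⟨cy, hcy0, hcy⟩ := hunram i y hy0
      rw [map_div₀, div_eq_one_iff_eq (hvne i cy hcy0)] at hcy
      have hcy1 : A.valuation cy < 1 := (hlt1 i cy).mpr (hcy ▸ hy1)
      have hcyA : cy ∈ A := (A.valuation_le_one_iff cy).mp hcy1.le
      obtain ⟨N, hN⟩ := hrank1 cy c hcyA hcy1 hc_ne
      refine ⟨N, fun n hn => ?_⟩
      calc (W i).valuation y ^ n ≤ (W i).valuation y ^ N :=
            pow_le_pow_right_of_le_one' hy1.le hn
        _ = (W i).valuation (algebraMap K F (cy ^ N)) := by rw [hcy, map_pow, map_pow]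
        _ ≤ (W i).valuation (algebraMap K F c) := (hle i _ _).mp hN
  -- ... and uniformly in `i`
  have hrk : ∀ y : F, (∀ i, (W i).valuation y < 1) →
      ∃ N : ℕ, ∀ n, N ≤ n → ∀ i, (W i).valuation y ^ n ≤ (W i).valuation (algebraMap K F c) := by
    intro y hy
    choose N hN using fun i => hrk1 i y (hy i)
    refine ⟨Finset.univ.sup N, fun n hn i => hN i n ?_⟩
    exact le_trans (Finset.le_sup (Finset.mem_univ i)) hn
  -- `1/m`
  have hmF : (m : F) ≠ 0 := by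
    intro h
    have := hm (Classical.arbitrary ι)
    rw [h, map_zero] at this
    exact zero_ne_one this
  have hminvOw : ∀ i, ((m : F)⁻¹) ∈ W i := by
    intro i
    rw [hOw, map_inv₀, hm i, inv_one]
  have hminvL : ∀ (L : ℕ → Submodule K F), (1 : F) ∈ L 0 → ((m : F)⁻¹) ∈ L 0 := by
    intro L hL
    have : ((m : F)⁻¹) = ((m : K)⁻¹) • (1 : F) := by
      rw [Algebra.smul_def, mul_one, map_inv₀, map_natCast]
    rw [this]
    exact (L 0).smul_mem _ hL
  -- the two subrings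
  let B1 : Subring F := ballSubringOn (supBall W) L1 mono1 one1 mul1
  let B20 : Subring F := ballSubringOn (supBall W) L20 mono20 one20 mul20
  -- the small elements
  set ε : F := u - 1 with hε
  set g2 : F := β ^ m * u with hg2
  set ε2 : F := g2 - 1 with hε2
  have hε2v : ∀ i, (W i).valuation ε2 < 1 := fun i =>
    tc_one_mul (W i).valuation (tc_one_pow (W i).valuation (hβ i) m) (hu i)
  have hεB : ε ∈ B1 := ⟨n1, hu1, mem_supBall.mpr fun i => (hOw i _).mpr (hu i).le⟩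
  have hε2B : ε2 ∈ B20 :=
    ⟨m * n2, sub_mem hβu (mono20 (Nat.zero_le _) one20),
      mem_supBall.mpr fun i => (hOw i _).mpr (hε2v i).le⟩
  have hu_eq : 1 + ε = u := by rw [hε]; ring
  have hg2_eq : 1 + ε2 = g2 := by rw [hε2]; ring
  -- choose the precision
  obtain ⟨N1, hN1⟩ := hrk ε hu
  obtain ⟨N2, hN2⟩ := hrk ε2 hε2v
  set n : ℕ := max N1 N2 with hn
  -- Newton approximations
  obtain ⟨b1, hb1B, w1, hw1B, r1, hr1B, hb1w, hb1⟩ :=
    tc_newton B1 m hmF ⟨0, hminvL L1 one1, mem_supBall.mpr hminvOw⟩ ε hεB n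
  obtain ⟨s2, hs2B, w2, hw2B, r2, hr2B, hs2w, hs2⟩ :=
    tc_newton B20 m hmF ⟨0, hminvL L20 one20, mem_supBall.mpr hminvOw⟩ ε2 hε2B n
  rw [hu_eq] at hb1
  rw [hg2_eq] at hs2
  obtain ⟨a1, hb1L, hb1S⟩ := hb1B
  obtain ⟨a2, hs2L, hs2S⟩ := hs2B
  obtain ⟨-, -, hw1S⟩ := hw1B
  obtain ⟨-, -, hw2S⟩ := hw2B
  obtain ⟨-, -, hr1S⟩ := hr1B
  obtain ⟨-, -, hr2S⟩ := hr2B
  have hb1Ow := mem_supBall.mp hb1S
  have hs2Ow := mem_supBall.mp hs2S
  have hw1Ow := mem_supBall.mp hw1S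
  have hw2Ow := mem_supBall.mp hw2S
  have hr1Ow := mem_supBall.mp hr1S
  have hr2Ow := mem_supBall.mp hr2S
  set b2 : F := s2 * β with hb2
  have hb2L : b2 ∈ L2 (a2 + n2) := mul2 a2 n2 s2 hs2L β hβ2
  have hβOw : ∀ i, β ∈ W i := fun i => (hOw i _).mpr (tc_val_eq_one (W i).valuation (hβ i)).le
  have hb2Ow : ∀ i, b2 ∈ W i := fun i => (W i).mul_mem _ _ (hs2Ow i) (hβOw i)
  have hb2m : b2 ^ m * u = 1 + ε2 ^ (n + 1) * r2 := by
    rw [← hs2, hg2, hb2]; ring
  -- congruences to `1`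
  have hb1_1 : ∀ i, (W i).valuation (b1 - 1) < 1 := by
    intro i
    rw [hb1w, add_sub_cancel_left, map_mul]
    exact lt_of_le_of_lt (mul_le_of_le_one_right' ((hOw i _).mp (hw1Ow i))) (hu i)
  have hs2_1 : ∀ i, (W i).valuation (s2 - 1) < 1 := by
    intro i
    rw [hs2w, add_sub_cancel_left, map_mul]
    exact lt_of_le_of_lt (mul_le_of_le_one_right' ((hOw i _).mp (hw2Ow i))) (hε2v i)
  have hb2_1 : ∀ i, (W i).valuation (b2 - 1) < 1 := fun i =>
    tc_one_mul (W i).valuation (hs2_1 i) (hβ i)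
  have hvb1 : ∀ i, (W i).valuation b1 = 1 := fun i => tc_val_eq_one (W i).valuation (hb1_1 i)
  have hvu : ∀ i, (W i).valuation u = 1 := fun i => tc_val_eq_one (W i).valuation (hu i)
  -- `Θ`
  set Θ : F := ∑ j ∈ Finset.range m, b1 ^ j * b2 ^ (m - 1 - j) with hΘ
  have hΘmul : Θ * (b1 - b2) = b1 ^ m - b2 ^ m := geom_sum₂_mul _ _ _
  have hΘm : ∀ i, (W i).valuation (Θ - (m : F)) < 1 := by
    intro i
    have : Θ - (m : F) = ∑ j ∈ Finset.range m, (b1 ^ j * b2 ^ (m - 1 - j) - 1) := by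
      rw [Finset.sum_sub_distrib, Finset.sum_const, Finset.card_range, nsmul_eq_mul, mul_one]
    rw [this]
    exact (W i).valuation.map_sum_lt one_ne_zero (fun j _ =>
      tc_one_mul (W i).valuation (tc_one_pow (W i).valuation (hb1_1 i) j)
        (tc_one_pow (W i).valuation (hb2_1 i) _))
  have hvΘ : ∀ i, (W i).valuation Θ = 1 := by
    intro i
    have h1 : Θ = (m : F) + (Θ - (m : F)) := by ring
    rw [h1, (W i).valuation.map_add_eq_of_lt_left (by rw [hm i]; exact hΘm i), hm i]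
  -- the difference `b1 - b2` is divisible by `c`
  have hdiff : (b1 - b2) * (Θ * u) = ε ^ (n + 1) * r1 - ε2 ^ (n + 1) * r2 := by
    have : (b1 - b2) * (Θ * u) = (Θ * (b1 - b2)) * u := by ring
    rw [this, hΘmul, sub_mul, hb1, hb2m]; ring
  have hvdiff : ∀ i, (W i).valuation (b1 - b2) ≤ (W i).valuation (algebraMap K F c) := by
    intro i
    have h1 : (W i).valuation (b1 - b2) = (W i).valuation ((b1 - b2) * (Θ * u)) := by
      rw [map_mul, map_mul, hvΘ i, hvu i, mul_one, mul_one]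
    rw [h1, hdiff]
    apply (W i).valuation.map_sub_le
    · rw [map_mul, map_pow]
      calc (W i).valuation ε ^ (n + 1) * (W i).valuation r1
          ≤ (W i).valuation ε ^ (n + 1) := mul_le_of_le_one_right' ((hOw i _).mp (hr1Ow i))
        _ ≤ (W i).valuation (algebraMap K F c) :=
          hN1 _ (le_trans (le_max_left _ _) (Nat.le_succ _)) i
    · rw [map_mul, map_pow]
      calc (W i).valuation ε2 ^ (n + 1) * (W i).valuation r2
          ≤ (W i).valuation ε2 ^ (n + 1) := mul_le_of_le_one_right' ((hOw i _).mp (hr2Ow i))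
        _ ≤ (W i).valuation (algebraMap K F c) :=
          hN2 _ (le_trans (le_max_right _ _) (Nat.le_succ _)) i
  -- the element `x = (b1 - b2)/c`
  set ac : F := algebraMap K F c with hac
  have hac0 : ac ≠ 0 := (map_ne_zero _).mpr hc_ne
  set x : F := (b1 - b2) / ac with hx
  have hxOw : ∀ i, x ∈ W i := by
    intro i
    rw [hOw, hx, map_div₀]
    exact (div_le_one₀ (zero_lt_iff.mpr (hvne i c hc_ne))).mpr (hvdiff i)
  have hcx : c • x = b1 - b2 := by
    rw [Algebra.smul_def, hx, ← hac, mul_div_cancel₀ _ hac0]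
  set lvl : ℕ := max a1 (a2 + n2) with hlvl
  have hxL : x ∈ L12 lvl := by
    have : x = (c⁻¹) • (b1 - b2) := by
      rw [Algebra.smul_def, map_inv₀, hx, div_eq_inv_mul]
    rw [this]
    apply (L12 lvl).smul_mem
    exact sub_mem (mono12 (le_max_left _ _) (h1 a1 hb1L)) (mono12 (le_max_right _ _) (h2 _ hb2L))
  obtain ⟨z1, ⟨d1, hz1L, hz1Ow⟩, z2, ⟨d2, hz2L, hz2Ow⟩, hz⟩ := hBT x ⟨lvl, hxL, hxOw⟩ c hc_ne hcA
    ⟨b1, ⟨a1, hb1L, hb1Ow⟩, -b2, ⟨a2 + n2, neg_mem hb2L, fun i => (W i).neg_mem _ (hb2Ow i)⟩, by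
      rw [hcx]; ring⟩
  -- the common element of `L1` and `L2`
  set w : F := c0 • b1 - c • z1 with hw
  have hw' : w = c0 • b2 + c • z2 := by
    have h3 : c0 • (b1 - b2) = c • (z1 + z2) := by
      rw [← hcx, smul_comm, hz]
    rw [smul_sub, smul_add] at h3
    rw [hw]
    linear_combination h3
  have hwL1 : w ∈ L1 (max a1 d1) :=
    sub_mem ((L1 _).smul_mem _ (mono1 (le_max_left _ _) hb1L))
      ((L1 _).smul_mem _ (mono1 (le_max_right _ _) hz1L))
  have hwL2 : w ∈ L2 (max (a2 + n2) d2) := by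
    rw [hw']
    exact add_mem ((L2 _).smul_mem _ (mono2 (le_max_left _ _) hb2L))
      ((L2 _).smul_mem _ (mono2 (le_max_right _ _) hz2L))
  by_cases hw0 : w = 0
  · exfalso
    set i0 : ι := Classical.arbitrary ι
    have h4 : c0 • b1 = c • z1 := by
      rw [hw] at hw0
      exact sub_eq_zero.mp hw0
    have h5 : (W i0).valuation (algebraMap K F c0) =
        (W i0).valuation ac * (W i0).valuation z1 := by
      have := congrArg (W i0).valuation h4
      rwa [Algebra.smul_def, Algebra.smul_def, map_mul, map_mul, hvb1 i0, mul_one] at this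
    have h6 : (W i0).valuation (algebraMap K F c0) ≤ (W i0).valuation ac := by
      rw [h5]
      exact mul_le_of_le_one_right' ((hOw i0 _).mp (hz1Ow i0))
    exact absurd h6 (not_le.mpr (hvc i0))
  · exact ⟨_, _, w, hw0, hwL1, hwL2⟩

end Fermat.Agent.GK.Lattice
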