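/-
GATE-K / K5' Claim 2, part 3 (helper39): the ABSTRACT SEMISTABLE LATTICE LEMMA.

`CoreFam A W π rd` is the multi-valuation twin of `GJ/J1/AbsCoreData.CoreData` (helper56):
`L a b = L(aE₁ + bE₂)`, `LD b = L(D + bE₂)` on the generic fibre, `Lt a b ⊂ κ` the corresponding
spaces on the (possibly reducible, nodal) special fibre, `κ` the product of the function fields of
its components, `rd` the componentwise reduction.  From it, `absCoreFam` derives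
`L(aE₁) ⊓ L(D + bE₂) ≠ 0`, i.e. `L(D) ≠ 0`: surjectivity of the reductions in large degree (squeeze),
generation of the unit ball of `L n n`, bounded torsion of `B₁₂/(B₁ + B₂)`, a lift `β ≡ 1` of `1`,
and `twoChartFam`.

Differences with J1: `Ow` is replaced by `⋂ i, W i`; `hm`, `u_val` are required for every `W i`;
`red_LD` is only required in large degree (`c ≤ b * d2`) — on a nodal fibre it is the statement
that the glueing constants of `u` are trivial.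
-/
import Mathlib
import Fermat.Agent.GK.Lattice.ResFam
import Fermat.Agent.GK.Lattice.TwoChartFam

set_option autoImplicit false

namespace Fermat.Agent.GK.Lattice

open Module Fermat.Agent.GJ.J1.AbsCore

variable {K F : Type*} [Field K] [Field F] [Algebra K F]
variable {k κ : Type*} [Field k] [CommRing κ] [Algebra k κ]
variable {ι : Type*}

/-- The abstract lattice datum over a family of valuations. -/
structure CoreFam (A : ValuationSubring K) (W : ι → ValuationSubring F)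
    (π : A →+* k) (rd : F → κ) where
  L : ℕ → ℕ → Submodule K F
  LD : ℕ → Submodule K F
  Lt : ℕ → ℕ → Submodule k κ
  d1 : ℕ
  d2 : ℕ
  g : ℕ
  c : ℕ
  a0 : ℕ
  m : ℕ
  u : F
  n1 : ℕ
  L_mono : ∀ {a a' b b' : ℕ}, a ≤ a' → b ≤ b' → L a b ≤ L a' b'
  LD_mono : ∀ {b b' : ℕ}, b ≤ b' → LD b ≤ LD b'
  Lt_mono : ∀ {a a' b b' : ℕ}, a ≤ a' → b ≤ b' → Lt a b ≤ Lt a' b'
  one_mem : (1 : F) ∈ L 0 0
  L_mul : ∀ a b a' b' : ℕ, ∀ x ∈ L a b, ∀ y ∈ L a' b', x * y ∈ L (a + a') (b + b')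
  LD_mul : ∀ b b' : ℕ, ∀ x ∈ L 0 b, ∀ y ∈ LD b', x * y ∈ LD (b + b')
  LD_le : ∀ b : ℕ, LD b ≤ L a0 b
  book : ∀ a b n0 : ℕ, a0 ≤ n0 → ∀ x1 ∈ L a 0, ∀ x2 ∈ LD b, x1 + x2 ∈ L n0 n0 →
    x1 ∈ L n0 0 ∧ x2 ∈ LD n0
  L_fin : ∀ a b : ℕ, FiniteDimensional K (L a b)
  Lt_fin : ∀ a b : ℕ, FiniteDimensional k (Lt a b)
  red_L : ∀ a b : ℕ, ∀ x ∈ L a b, (∀ i, x ∈ W i) → rd x ∈ Lt a b
  red_LD : ∀ b : ℕ, c ≤ b * d2 → ∀ x ∈ LD b, (∀ i, x ∈ W i) → rd x ∈ Lt 0 b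
  one_mem_Lt : (1 : κ) ∈ Lt 0 0
  d1_pos : 0 < d1
  d2_pos : 0 < d2
  dim_L : ∀ a b : ℕ, a * d1 + b * d2 + 1 ≤ finrank K (L a b) + g
  dim_LD : ∀ b : ℕ, b * d2 + 1 ≤ finrank K (LD b) + g
  dim_Lt : ∀ a b : ℕ, c ≤ a * d1 + b * d2 → finrank k (Lt a b) + g ≤ a * d1 + b * d2 + 1
  Lt_inf : ∀ a b a' b' : ℕ, Lt a b ⊓ Lt a' b' = Lt (min a a') (min b b')
  hm : ∀ i, (W i).valuation (m : F) = 1
  u_mem : u - 1 ∈ L n1 0
  u_val : ∀ i, (W i).valuation (u - 1) < 1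
  u_trick : ∀ b : ℕ, ∀ x ∈ LD b, x ^ m * u ∈ L 0 (m * b)

variable {A : ValuationSubring K} {W : ι → ValuationSubring F} {π : A →+* k} {rd : F → κ}

namespace CoreFam

variable (D : CoreFam A W π rd)

theorem LD_fin (b : ℕ) : FiniteDimensional K (D.LD b) := by
  have := D.L_fin D.a0 b
  exact Submodule.finiteDimensional_of_le (D.LD_le b)

variable [Finite ι] [Nonempty ι] (h : ResFam A W π rd) (horth : OrthFam A W)
include h horth

/-- exact dimension on the special fibre, equality of dimensions, and surjectivity of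
the reduction `L a b ∩ ⋂ W i → Lt a b`, in large degree -/
theorem squeeze_L (a b : ℕ) (hc : D.c ≤ a * D.d1 + b * D.d2) :
    finrank k (D.Lt a b) + D.g = a * D.d1 + b * D.d2 + 1 ∧
      finrank K (D.L a b) = finrank k (D.Lt a b) ∧
      ∀ ξ ∈ D.Lt a b, ∃ x ∈ D.L a b, (∀ i, x ∈ W i) ∧ rd x = ξ := by
  have := D.L_fin a b
  have := D.Lt_fin a b
  have h1 := D.dim_L a b
  have h2 := D.dim_Lt a b hc
  obtain ⟨heq, hsurj⟩ := h.squeeze horth (D.L a b) (D.Lt a b) (D.red_L a b) (by omega)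
  exact ⟨by omega, heq.symm, hsurj⟩

/-- surjectivity of the reduction `LD b ∩ ⋂ W i → Lt 0 b`, in large degree -/
theorem squeeze_LD (b : ℕ) (hc : D.c ≤ b * D.d2) :
    ∀ ξ ∈ D.Lt 0 b, ∃ x ∈ D.LD b, (∀ i, x ∈ W i) ∧ rd x = ξ := by
  have := D.LD_fin b
  have := D.Lt_fin 0 b
  have h1 := D.dim_LD b
  have h2 := D.dim_Lt 0 b (by omega)
  exact (h.squeeze horth (D.LD b) (D.Lt 0 b) (D.red_LD b hc) (by omega)).2

/-- The special-fibre dimension count. -/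
theorem Lt_decomp (n0 n : ℕ) (hn : n0 ≤ n) (h1 : D.c ≤ n0 * D.d1) (h2 : D.c ≤ n0 * D.d2) :
    D.Lt n n = D.Lt n 0 ⊔ D.Lt 0 n ⊔ D.Lt n0 n0 := by
  have hd1 : n0 * D.d1 ≤ n * D.d1 := Nat.mul_le_mul_right _ hn
  have hd2 : n0 * D.d2 ≤ n * D.d2 := Nat.mul_le_mul_right _ hn
  -- exact dimensions
  have e_nn := (D.squeeze_L h horth n n (by omega)).1
  have e_nn0 := (D.squeeze_L h horth n n0 (by omega)).1
  have e_n0n := (D.squeeze_L h horth n0 n (by omega)).1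
  have e_n0n0 := (D.squeeze_L h horth n0 n0 (by omega)).1
  have e_n0 := (D.squeeze_L h horth n 0 (by omega)).1
  have e_0n := (D.squeeze_L h horth 0 n (by omega)).1
  have e_n00 := (D.squeeze_L h horth n0 0 (by omega)).1
  have e_0n0 := (D.squeeze_L h horth 0 n0 (by omega)).1
  have := D.Lt_fin
  -- step 1 : Lt n n = Lt n n0 ⊔ Lt n0 n
  have s1 : D.Lt n n0 ⊔ D.Lt n0 n = D.Lt n n := by
    apply Submodule.eq_of_le_of_finrank_eq
      (sup_le (D.Lt_mono le_rfl hn) (D.Lt_mono hn le_rfl))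
    have hinf : D.Lt n n0 ⊓ D.Lt n0 n = D.Lt n0 n0 := by
      rw [D.Lt_inf, min_eq_right hn, min_eq_left hn]
    have := Submodule.finrank_sup_add_finrank_inf_eq (D.Lt n n0) (D.Lt n0 n)
    rw [hinf] at this
    omega
  -- step 2 : Lt n n0 = Lt n 0 ⊔ Lt n0 n0
  have s2 : D.Lt n 0 ⊔ D.Lt n0 n0 = D.Lt n n0 := by
    apply Submodule.eq_of_le_of_finrank_eq
      (sup_le (D.Lt_mono le_rfl (Nat.zero_le _)) (D.Lt_mono hn le_rfl))
    have hinf : D.Lt n 0 ⊓ D.Lt n0 n0 = D.Lt n0 0 := by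
      rw [D.Lt_inf, min_eq_right hn, min_eq_left (Nat.zero_le _)]
    have := Submodule.finrank_sup_add_finrank_inf_eq (D.Lt n 0) (D.Lt n0 n0)
    rw [hinf] at this
    omega
  -- step 3 : Lt n0 n = Lt 0 n ⊔ Lt n0 n0
  have s3 : D.Lt 0 n ⊔ D.Lt n0 n0 = D.Lt n0 n := by
    apply Submodule.eq_of_le_of_finrank_eq
      (sup_le (D.Lt_mono (Nat.zero_le _) le_rfl) (D.Lt_mono le_rfl hn))
    have hinf : D.Lt 0 n ⊓ D.Lt n0 n0 = D.Lt 0 n0 := by
      rw [D.Lt_inf, min_eq_left (Nat.zero_le _), min_eq_right hn]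
    have := Submodule.finrank_sup_add_finrank_inf_eq (D.Lt 0 n) (D.Lt n0 n0)
    rw [hinf] at this
    omega
  rw [← s1, ← s2, ← s3]
  -- lattice bookkeeping
  apply le_antisymm
  · refine sup_le (sup_le ?_ ?_) (sup_le ?_ ?_)
    · exact le_sup_of_le_left le_sup_left
    · exact le_sup_right
    · exact le_sup_of_le_left le_sup_right
    · exact le_sup_right
  · refine sup_le (sup_le ?_ ?_) ?_
    · exact le_sup_of_le_left le_sup_left
    · exact le_sup_of_le_right le_sup_left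
    · exact le_sup_of_le_left le_sup_right

/-- **Generation.**  For `n ≥ n₀` (large), the unit ball of `L n n` is the sum of the unit
balls of `L n 0`, `LD n` and `L n₀ n₀`. -/
theorem generation (n0 n : ℕ) (hn : n0 ≤ n) (ha0 : D.a0 ≤ n0) (h1 : D.c ≤ n0 * D.d1)
    (h2 : D.c ≤ n0 * D.d2) (x : F) (hx : x ∈ D.L n n) (hxO : ∀ i, x ∈ W i) :
    ∃ x1 ∈ D.L n 0, (∀ i, x1 ∈ W i) ∧ ∃ x2 ∈ D.LD n, (∀ i, x2 ∈ W i) ∧
      ∃ x0 ∈ D.L n0 n0, (∀ i, x0 ∈ W i) ∧ x = x1 + x2 + x0 := by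
  classical
  have hd1 : n0 * D.d1 ≤ n * D.d1 := Nat.mul_le_mul_right _ hn
  have hd2 : n0 * D.d2 ≤ n * D.d2 := Nat.mul_le_mul_right _ hn
  have := D.L_fin n n
  obtain ⟨e, heV, heO, hli, ho⟩ := horth (D.L n n) inferInstance
  have hdec := D.Lt_decomp h horth n0 n hn h1 h2
  have key : ∀ j, ∃ y1 ∈ D.L n 0, (∀ i, y1 ∈ W i) ∧ ∃ y2 ∈ D.LD n, (∀ i, y2 ∈ W i) ∧
      ∃ y0 ∈ D.L n0 n0, (∀ i, y0 ∈ W i) ∧ rd (y1 + y2 + y0) = rd (e j) := by
    intro j
    have hmem : rd (e j) ∈ D.Lt n n := D.red_L n n _ (heV j) (heO j)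
    rw [hdec] at hmem
    obtain ⟨ξ12, h12, ξ0, h0, hsum⟩ := Submodule.mem_sup.1 hmem
    obtain ⟨ξ1, hξ1, ξ2, hξ2, hsum12⟩ := Submodule.mem_sup.1 h12
    obtain ⟨y1, hy1, hy1O, hr1⟩ := (D.squeeze_L h horth n 0 (by omega)).2.2 ξ1 hξ1
    obtain ⟨y2, hy2, hy2O, hr2⟩ := D.squeeze_LD h horth n (by omega) ξ2 hξ2
    obtain ⟨y0, hy0, hy0O, hr0⟩ := (D.squeeze_L h horth n0 n0 (by omega)).2.2 ξ0 h0
    refine ⟨y1, hy1, hy1O, y2, hy2, hy2O, y0, hy0, hy0O, ?_⟩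
    rw [h.rd_add _ _ (fun i => (W i).add_mem _ _ (hy1O i) (hy2O i)) hy0O,
      h.rd_add _ _ hy1O hy2O, hr1, hr2, hr0, hsum12, hsum]
  choose y1 hy1 hy1O y2 hy2 hy2O y0 hy0 hy0O hred using key
  have hyO : ∀ j i, y1 j + y2 j + y0 j ∈ W i := fun j i =>
    (W i).add_mem _ _ ((W i).add_mem _ _ (hy1O j i) (hy2O j i)) (hy0O j i)
  have hyV : ∀ j, y1 j + y2 j + y0 j ∈ D.L n n := fun j =>
    (D.L n n).add_mem ((D.L n n).add_mem (D.L_mono le_rfl (Nat.zero_le _) (hy1 j))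
      (D.L_mono (ha0.trans hn) le_rfl (D.LD_le n (hy2 j)))) (D.L_mono hn hn (hy0 j))
  have hliκ : LinearIndependent k (fun j => rd (y1 j + y2 j + y0 j)) := by
    have := h.rd_indep_of_orth e heO hli ho
    have heq : (fun j => rd (y1 j + y2 j + y0 j)) = fun j => rd (e j) :=
      funext hred
    rw [heq]; exact this
  have hliK := h.linearIndependent_of_rd _ hyO hliκ
  have hliV : LinearIndependent K
      (fun j => (⟨y1 j + y2 j + y0 j, hyV j⟩ : D.L n n)) :=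
    LinearIndependent.of_comp (D.L n n).subtype hliK
  have hspan := hliV.span_eq_top_of_card_eq_finrank' (by rw [Fintype.card_fin])
  have hmem : (⟨x, hx⟩ : D.L n n) ∈ Submodule.span K
      (Set.range fun j => (⟨y1 j + y2 j + y0 j, hyV j⟩ : D.L n n)) := by
    rw [hspan]; trivial
  obtain ⟨cf, hcf⟩ := (Submodule.mem_span_range_iff_exists_fun K).1 hmem
  have hx' : x = ∑ j, cf j • (y1 j + y2 j + y0 j) := by
    have := congrArg (D.L n n).subtype hcf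
    simp only [map_sum, map_smul, Submodule.subtype_apply] at this
    exact this.symm
  have hcA : ∀ j, cf j ∈ A :=
    h.coeff_mem_of_sum_mem _ hyO hliκ cf (by rw [← hx']; exact hxO)
  refine ⟨∑ j, cf j • y1 j, (D.L n 0).sum_mem fun j _ => (D.L n 0).smul_mem _ (hy1 j),
    h.sum_smul_mem _ cf y1 (fun j _ => hcA j) (fun j _ => hy1O j),
    ∑ j, cf j • y2 j, (D.LD n).sum_mem fun j _ => (D.LD n).smul_mem _ (hy2 j),
    h.sum_smul_mem _ cf y2 (fun j _ => hcA j) (fun j _ => hy2O j),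
    ∑ j, cf j • y0 j, (D.L n0 n0).sum_mem fun j _ => (D.L n0 n0).smul_mem _ (hy0 j),
    h.sum_smul_mem _ cf y0 (fun j _ => hcA j) (fun j _ => hy0O j), ?_⟩
  rw [hx']
  simp only [smul_add, Finset.sum_add_distrib]

/-- **Bounded torsion (BT)** of `B₁₂/(B₁ + B₂)` for the sup-norm unit balls. -/
theorem boundedTorsion :
    ∃ c0 : K, c0 ≠ 0 ∧ c0 ∈ A ∧
      ∀ x : F, (∃ n, x ∈ D.L (max n D.a0) n ∧ ∀ i, x ∈ W i) →
      ∀ c : K, c ≠ 0 → c ∈ A →
      (∃ y1 : F, (∃ n, y1 ∈ D.L n 0 ∧ ∀ i, y1 ∈ W i) ∧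
        ∃ y2 : F, (∃ n, y2 ∈ D.LD n ∧ ∀ i, y2 ∈ W i) ∧ c • x = y1 + y2) →
      ∃ z1 : F, (∃ n, z1 ∈ D.L n 0 ∧ ∀ i, z1 ∈ W i) ∧
        ∃ z2 : F, (∃ n, z2 ∈ D.LD n ∧ ∀ i, z2 ∈ W i) ∧ c0 • x = z1 + z2 := by
  classical
  -- the threshold
  set n0 : ℕ := max D.a0 D.c with hn0
  have ha0 : D.a0 ≤ n0 := le_max_left _ _
  have hcn0 : D.c ≤ n0 := le_max_right _ _
  have h1 : D.c ≤ n0 * D.d1 := hcn0.trans (Nat.le_mul_of_pos_right _ D.d1_pos)
  have h2 : D.c ≤ n0 * D.d2 := hcn0.trans (Nat.le_mul_of_pos_right _ D.d2_pos)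
  -- the finite-dimensional space V' and its orthonormal basis
  have := D.L_fin n0 0
  have := D.LD_fin n0
  obtain ⟨e, heV, heO, hli, ho⟩ := horth (D.L n0 0 ⊔ D.LD n0) inferInstance
  have hdecomp : ∀ j, ∃ p ∈ D.L n0 0, ∃ q ∈ D.LD n0, p + q = e j := fun j =>
    Submodule.mem_sup.1 (heV j)
  choose p hp q hq hpq using hdecomp
  obtain ⟨c0, hc00, hc0A, hc0⟩ := h.exists_common_denominator Finset.univ p
  have hc0p : ∀ j i, c0 • p j ∈ W i := fun j => hc0 j (Finset.mem_univ j)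
  have hc0q : ∀ j i, c0 • q j ∈ W i := by
    intro j i
    have : c0 • q j = c0 • e j - c0 • p j := by rw [← hpq j, smul_add]; ring
    rw [this]
    exact sub_mem (h.smul_mem hc0A (heO j) i) (hc0p j i)
  -- basis property of `e`
  have hliV : LinearIndependent K
      (fun j => (⟨e j, heV j⟩ : (D.L n0 0 ⊔ D.LD n0 : Submodule K F))) :=
    LinearIndependent.of_comp (D.L n0 0 ⊔ D.LD n0).subtype hli
  have hspan := hliV.span_eq_top_of_card_eq_finrank' (by rw [Fintype.card_fin])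
  refine ⟨c0, hc00, hc0A, ?_⟩
  rintro x ⟨n', hxL, hxO⟩ c hc0' hcA ⟨y1, ⟨a, hy1, hy1O⟩, y2, ⟨b, hy2, hy2O⟩, hsum⟩
  -- enlarge the level
  set N : ℕ := max (max n' D.a0) n0 with hN
  have hn0N : n0 ≤ N := le_max_right _ _
  have hxN : x ∈ D.L N N :=
    D.L_mono (le_max_left _ _) ((le_max_left _ _).trans (le_max_left _ _)) hxL
  obtain ⟨x1, hx1, hx1O, x2, hx2, hx2O, x0, hx0, hx0O, hxeq⟩ :=
    D.generation h horth n0 N hn0N ha0 h1 h2 x hxN hxO
  -- `c • x0` decomposes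
  have hcx0 : c • x0 = (y1 - c • x1) + (y2 - c • x2) := by
    have : c • x = c • x1 + c • x2 + c • x0 := by rw [hxeq, smul_add, smul_add]
    rw [hsum] at this
    linear_combination (-1 : F) * this
  have hb1 : y1 - c • x1 ∈ D.L (max a N) 0 :=
    (D.L _ 0).sub_mem (D.L_mono (le_max_left _ _) le_rfl hy1)
      ((D.L _ 0).smul_mem _ (D.L_mono (le_max_right _ _) le_rfl hx1))
  have hb2 : y2 - c • x2 ∈ D.LD (max b N) :=
    (D.LD _).sub_mem (D.LD_mono (le_max_left _ _) hy2)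
      ((D.LD _).smul_mem _ (D.LD_mono (le_max_right _ _) hx2))
  have hb0 : (y1 - c • x1) + (y2 - c • x2) ∈ D.L n0 n0 := by
    rw [← hcx0]; exact (D.L n0 n0).smul_mem _ hx0
  obtain ⟨hb1', hb2'⟩ := D.book _ _ n0 ha0 _ hb1 _ hb2 hb0
  have hx0V : x0 ∈ D.L n0 0 ⊔ D.LD n0 := by
    have : c • x0 ∈ D.L n0 0 ⊔ D.LD n0 := by
      rw [hcx0]; exact Submodule.add_mem_sup hb1' hb2'
    have h' := (D.L n0 0 ⊔ D.LD n0).smul_mem c⁻¹ this
    rwa [smul_smul, inv_mul_cancel₀ hc0', one_smul] at h'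
  have hmem : (⟨x0, hx0V⟩ : (D.L n0 0 ⊔ D.LD n0 : Submodule K F)) ∈ Submodule.span K
      (Set.range fun j => (⟨e j, heV j⟩ : (D.L n0 0 ⊔ D.LD n0 : Submodule K F))) := by
    rw [hspan]; trivial
  obtain ⟨cf, hcf⟩ := (Submodule.mem_span_range_iff_exists_fun K).1 hmem
  have hx0' : x0 = ∑ j, cf j • e j := by
    have := congrArg (D.L n0 0 ⊔ D.LD n0).subtype hcf
    simp only [map_sum, map_smul, Submodule.subtype_apply] at this
    exact this.symm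
  have hcfA : ∀ j, cf j ∈ A := ho cf (by rw [← hx0']; exact hx0O)
  refine ⟨c0 • x1 + ∑ j, cf j • (c0 • p j), ⟨N, ?_, ?_⟩,
    c0 • x2 + ∑ j, cf j • (c0 • q j), ⟨N, ?_, ?_⟩, ?_⟩
  · exact (D.L N 0).add_mem ((D.L N 0).smul_mem _ hx1)
      ((D.L N 0).sum_mem fun j _ => (D.L N 0).smul_mem _
        ((D.L N 0).smul_mem _ (D.L_mono hn0N le_rfl (hp j))))
  · exact fun i => (W i).add_mem _ _ (h.smul_mem hc0A hx1O i)
      (h.sum_smul_mem _ cf _ (fun j _ => hcfA j) (fun j _ => hc0p j) i)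
  · exact (D.LD N).add_mem ((D.LD N).smul_mem _ hx2)
      ((D.LD N).sum_mem fun j _ => (D.LD N).smul_mem _
        ((D.LD N).smul_mem _ (D.LD_mono hn0N (hq j))))
  · exact fun i => (W i).add_mem _ _ (h.smul_mem hc0A hx2O i)
      (h.sum_smul_mem _ cf _ (fun j _ => hcfA j) (fun j _ => hc0q j) i)
  · have hsumpq : ∑ j, cf j • (c0 • p j) + ∑ j, cf j • (c0 • q j) = c0 • x0 := by
      rw [hx0', Finset.smul_sum, ← Finset.sum_add_distrib]
      refine Finset.sum_congr rfl fun j _ => ?_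
      rw [← hpq j, smul_add, smul_add, smul_comm c0 (cf j) (p j), smul_comm c0 (cf j) (q j)]
    rw [hxeq, smul_add, smul_add, ← hsumpq]
    abel

end CoreFam

/-- **ABS-CORE for a family of valuations = Claim 2 of report 202, abstract form.**
From the abstract lattice datum over a finite family of valuations with common rank-one
restriction `A`: `L(aE₁) ⊓ L(D + bE₂) ≠ 0`, i.e. `L(D) ≠ 0`. -/
theorem absCoreFam [Finite ι] [Nonempty ι] (h : ResFam A W π rd) (horth : OrthFam A W)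
    (hrank1 : ∀ x c : K, x ∈ A → A.valuation x < 1 → c ≠ 0 →
      ∃ n : ℕ, A.valuation (x ^ n) ≤ A.valuation c)
    (D : CoreFam A W π rd) :
    ∃ a b : ℕ, ∃ x : F, x ≠ 0 ∧ x ∈ D.L a 0 ∧ x ∈ D.LD b := by
  -- the lifted `β`
  have hcd : D.c ≤ D.c * D.d2 := Nat.le_mul_of_pos_right _ D.d2_pos
  obtain ⟨β, hβ, hβO, hβred⟩ := D.squeeze_LD h horth D.c hcd 1
    (D.Lt_mono le_rfl (Nat.zero_le _) D.one_mem_Lt)
  have hβval : ∀ i, (W i).valuation (β - 1) < 1 := h.val_sub_one_lt_of_rd_eq_one hβO hβred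
  exact twoChartFam A W h.comap hrank1 h.unram D.m D.hm
    (fun n => D.L n 0) D.LD (fun n => D.L 0 n) (fun n => D.L (max n D.a0) n)
    (fun _ _ hab => D.L_mono hab le_rfl) (fun _ _ hab => D.LD_mono hab)
    (fun _ _ hab => D.L_mono le_rfl hab)
    (fun _ _ hab => D.L_mono (max_le_max hab le_rfl) hab)
    (fun n => D.L_mono (le_max_left _ _) (Nat.zero_le _))
    (fun n => (D.LD_le n).trans (D.L_mono (le_max_right _ _) le_rfl))
    (fun n => D.L_mono (Nat.zero_le _) le_rfl)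
    D.one_mem D.one_mem
    (fun a b x hx y hy => by simpa using D.L_mul a 0 b 0 x hx y hy)
    (fun a b x hx y hy => by simpa using D.L_mul 0 a 0 b x hx y hy)
    (fun a b x hx y hy => D.LD_mul a b x hx y hy)
    (D.boundedTorsion h horth)
    D.u D.n1 D.u_mem D.u_val β D.c hβ hβval (D.u_trick D.c β hβ)

end Fermat.Agent.GK.Lattice
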