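/-
GATE-K / N9-INST skeleton (helper39, technical lead of the N9-INST/N10-PACKAGE stack).

The multi-valuation twin of `GJ/J1/Inst.lean` + `KummerGeneric.lean`:

* `SpecialSide A W π rd G` : the special-fibre half of a `CoreFam` relative to a generic-fibre half
  `G : Inst.GenSide K F` (J1, helper56/helper30) — EXACTLY what helper33's unit twist
  (`GK/Core/TwistLt.lean`) + the reduction statements have to produce;
* `CoreFam.ofSides`, `exists_section_of_sides` : `GenSide + SpecialSide ⟹ L(aE₁) ⊓ L(D + bE₂) ≠ 0`;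
* `LDinf H t u m n = L((1/m) div u + n (t)_∞)` : the polar family AT INFINITY of the Kummer divisor
  (the family whose reduced lattice is helper47's `LamData.Lam u n`);
* `exists_genSide_fam` : `InstGen.exists_genSide_of_dvd` (helper30) with the `LD`-family
  TRANSPARENT: `x ∈ G.LD b' → x * (t - t2)^b' ∈ LDinf H t (a/b) m b'` (unit twist at `E₂`);
* `kummer_fam` : the chain `valueSet → t2 → GenSide → SpecialSide → absCoreFam → kummer_finish`
  in hypothesis form: `a = b * v ^ m`.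
-/
import Fermat.Agent.GJ.J1.InstGenSide
import Fermat.Agent.GJ.J1.KummerFinish
import Fermat.Agent.GJ.FF.Instances
import Fermat.Agent.GK.Lattice.AbsCoreFam

set_option autoImplicit false

noncomputable section

open AlgebraicCurve IntermediateField Module

namespace Fermat.Agent.GK.Lattice

open Fermat.Agent.GJ.J1 Fermat.Agent.GJ.J1.InstGen Fermat.Agent.GJ.FF.PrincipalOf
  Fermat.Agent.RRh45 Fermat.Agent.RR.Bound Fermat.Agent.GJ.J1.G1 Fermat.Agent.S24

section Sides

variable {K F : Type*} [Field K] [Field F] [Algebra K F]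
variable {k κ : Type*} [Field k] [CommRing κ] [Algebra k κ]
variable {ι : Type*}

/-- The special-fibre half of a `CoreFam`, relative to a generic-fibre half `G`. -/
structure SpecialSide (A : ValuationSubring K) (W : ι → ValuationSubring F)
    (π : A →+* k) (rd : F → κ) (G : Inst.GenSide K F) where
  Lt : ℕ → ℕ → Submodule k κ
  c : ℕ
  Lt_mono : ∀ {a a' b b' : ℕ}, a ≤ a' → b ≤ b' → Lt a b ≤ Lt a' b'
  Lt_fin : ∀ a b : ℕ, FiniteDimensional k (Lt a b)
  red_L : ∀ a b : ℕ, ∀ x ∈ G.L a b, (∀ i, x ∈ W i) → rd x ∈ Lt a b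
  red_LD : ∀ b : ℕ, c ≤ b * G.d2 → ∀ x ∈ G.LD b, (∀ i, x ∈ W i) → rd x ∈ Lt 0 b
  one_mem_Lt : (1 : κ) ∈ Lt 0 0
  dim_Lt : ∀ a b : ℕ, c ≤ a * G.d1 + b * G.d2 →
    finrank k (Lt a b) + G.g ≤ a * G.d1 + b * G.d2 + 1
  Lt_inf : ∀ a b a' b' : ℕ, Lt a b ⊓ Lt a' b' = Lt (min a a') (min b b')

variable {A : ValuationSubring K} {W : ι → ValuationSubring F} {π : A →+* k} {rd : F → κ}

/-- The `CoreFam` assembled from the two halves. -/
def CoreFam.ofSides (G : Inst.GenSide K F) (S : SpecialSide A W π rd G)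
    (hm : ∀ i, (W i).valuation (G.m : F) = 1) (hu : ∀ i, (W i).valuation (G.u - 1) < 1) :
    CoreFam A W π rd where
  L := G.L
  LD := G.LD
  Lt := S.Lt
  d1 := G.d1
  d2 := G.d2
  g := G.g
  c := S.c
  a0 := G.a0
  m := G.m
  u := G.u
  n1 := G.n1
  L_mono := G.L_mono
  LD_mono := G.LD_mono
  Lt_mono := S.Lt_mono
  one_mem := G.one_mem
  L_mul := G.L_mul
  LD_mul := G.LD_mul
  LD_le := G.LD_le
  book := G.book
  L_fin := G.L_fin
  Lt_fin := S.Lt_fin
  red_L := S.red_L
  red_LD := S.red_LD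
  one_mem_Lt := S.one_mem_Lt
  d1_pos := G.d1_pos
  d2_pos := G.d2_pos
  dim_L := G.dim_L
  dim_LD := G.dim_LD
  dim_Lt := S.dim_Lt
  Lt_inf := S.Lt_inf
  hm := hm
  u_mem := G.u_mem
  u_val := hu
  u_trick := G.u_trick

/-- **Two-valuation Kummer core, generic form**: from the two halves,
`L(aE₁) ⊓ L(D + bE₂) ≠ 0`. -/
theorem exists_section_of_sides [Finite ι] [Nonempty ι] (h : ResFam A W π rd)
    (horth : OrthFam A W)
    (hrank1 : ∀ x c : K, x ∈ A → A.valuation x < 1 → c ≠ 0 →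
      ∃ n : ℕ, A.valuation (x ^ n) ≤ A.valuation c)
    (G : Inst.GenSide K F) (S : SpecialSide A W π rd G)
    (hm : ∀ i, (W i).valuation (G.m : F) = 1) (hu : ∀ i, (W i).valuation (G.u - 1) < 1) :
    ∃ a b : ℕ, ∃ x : F, x ≠ 0 ∧ x ∈ G.L a 0 ∧ x ∈ G.LD b :=
  absCoreFam h horth hrank1 (CoreFam.ofSides G S hm hu)

end Sides

section Gen

variable {K F : Type*} [Field K] [Field F] [Algebra K F]

/-- `L((1/m) div u + n (t)_∞)` : the polar family at infinity of the Kummer divisor of `u`. -/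
def LDinf [FiniteResidues K F] (H : Hyp K F) (t u : F) (m n : ℕ) : Submodule K F :=
  riemannRochSpace (kummerDivisor H u m + n • poleDivisor H t)

theorem mem_LDinf_iff [FiniteResidues K F] (H : Hyp K F) {t u : F} {m n : ℕ} {x : F} :
    x ∈ LDinf H t u m n ↔
      ∀ v : Place K F, Vle v x (v.ord u / (m : ℤ) + n * max (-(v.ord t)) 0) := by
  unfold LDinf
  rw [mem_rr_iff_vle]
  refine forall_congr' fun v => ?_
  rw [Finsupp.add_apply, kummerDivisor_apply, Finsupp.smul_apply, poleDivisor_apply, nsmul_eq_mul]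

/-- the unit twist at `E₂ = (t - t2)_0` : `L(D + b (t - t2)_0) · (t - t2)^b ⊆ L(D + b (t)_∞)` -/
theorem mul_pow_mem_rr_pole [FiniteResidues K F] (H : Hyp K F) {t : F} (t2 : K)
    (ht : t - algebraMap K F t2 ≠ 0) (D : Divisor K F) (b : ℕ) {x : F}
    (hx : x ∈ riemannRochSpace (D + b • zeroDivisor H (t - algebraMap K F t2))) :
    x * (t - algebraMap K F t2) ^ b ∈ riemannRochSpace (D + b • poleDivisor H t) := by
  rw [mem_rr_iff_vle] at hx ⊢
  intro v
  have hxv := hx v
  rw [Finsupp.add_apply, Finsupp.smul_apply, zeroDivisor_apply, nsmul_eq_mul] at hxv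
  rw [Finsupp.add_apply, Finsupp.smul_apply, poleDivisor_apply, nsmul_eq_mul]
  set s : F := t - algebraMap K F t2 with hs
  -- a bound for `s` at `v`
  have key : ∃ n' : ℤ, Vle v s n' ∧ max (v.ord s) 0 + n' ≤ max (-(v.ord t)) 0 := by
    by_cases hneg : v.ord t < 0
    · refine ⟨-(v.ord t), ?_, ?_⟩
      · have h1 : Vle v t (-(v.ord t)) := Vle.iff_ord.mpr (Or.inr (by omega))
        have h2 : Vle v (algebraMap K F t2) (-(v.ord t)) :=
          (Vle.algebraMap v t2).mono (by omega)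
        exact h1.sub h2
      · have := ord_sub_nonpos_of_ord_neg hneg t2
        rw [max_eq_right this, max_eq_left (by omega)]
        omega
    · have hnn : 0 ≤ v.ord t := not_lt.mp hneg
      have h1 : Vle v t 0 := Vle.iff_ord.mpr (Or.inr (by omega))
      have h2 : Vle v s 0 := h1.sub (Vle.algebraMap v t2)
      have h3 : 0 ≤ v.ord s := by
        have := neg_le_ord_of_vle ht h2
        omega
      refine ⟨-(v.ord s), Vle.iff_ord.mpr (Or.inr (by omega)), ?_⟩
      rw [max_eq_left h3, max_eq_right (by omega)]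
      omega
  obtain ⟨n', hn', hle⟩ := key
  refine (hxv.mul (hn'.pow b)).mono ?_
  have hb : (0 : ℤ) ≤ b := Int.natCast_nonneg b
  nlinarith

variable [IsAlgClosed K] (x₀ : F) [IsGen K x₀]

include x₀ in
/-- **The generic-fibre side of the Kummer core with the `LD`-family transparent**
(= `InstGen.exists_genSide_of_dvd` + the unit twist of `LD` at `E₂ = (t - t2)_0`). -/
theorem exists_genSide_fam {t : F} (ht : Transcendental K t) {m : ℕ} (hm : m ≠ 0) {a b : F}
    (ha : a ≠ 0) (hb : b ≠ 0) (hdvd : ∀ P : Place K F, (m : ℤ) ∣ P.ord a - P.ord b)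
    (T : Finset K)
    (hT : ∀ P : Place K F, P.ord a - P.ord b ≠ 0 → 0 ≤ P.ord t →
      ∃ s ∈ T, 0 < P.ord (t - algebraMap K F s))
    (t2 : K) (ht2 : t2 ∉ T) :
    ∃ G : Inst.GenSide K F, G.m = m ∧ G.u = a / b ∧
      G.d1 = (T.card + 1) * Module.finrank K⟮t⟯ F ∧ G.d2 = Module.finrank K⟮t⟯ F ∧
      (G.g : ℤ) = @genusRR K F _ _ _ (Fermat.Agent.GJ.FF.finiteResidues x₀)
        (hasPrincipalDivisors_gen x₀) (Fermat.Agent.GJ.FF.nonempty_place x₀) ∧
      (∀ a' b' : ℕ, G.L a' b' = Lspace K t (weight T t2 a' b') (a' : ℤ)) ∧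
      (∀ (b' : ℕ) (x : F), x ∈ G.LD b' →
        x * (t - algebraMap K F t2) ^ b' ∈
          @LDinf K F _ _ _ (Fermat.Agent.GJ.FF.finiteResidues x₀) (hyp_of_isGen x₀)
            t (a / b) m b') ∧
      ∀ (a' b' : ℕ) (x : F), x ≠ 0 → x ∈ G.L a' 0 → x ∈ G.LD b' →
        ∀ P : Place K F, 0 ≤ (m : ℤ) * P.ord x + (P.ord a - P.ord b) := by
  have : FiniteResidues K F := Fermat.Agent.GJ.FF.finiteResidues x₀
  have : HasPrincipalDivisors K F := hasPrincipalDivisors_gen x₀
  have : Nonempty (Place K F) := Fermat.Agent.GJ.FF.nonempty_place x₀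
  have H : Hyp K F := hyp_of_isGen x₀
  have hu0 : a / b ≠ 0 := div_ne_zero ha hb
  have hdvd' : ∀ P : Place K F, (m : ℤ) ∣ P.ord (a / b) := fun P => by
    rw [ord_div ha hb]; exact hdvd P
  set D : Divisor K F := kummerDivisor H (a / b) m with hDdef
  have hdiv : ∀ v : Place K F, v.ord (a / b) = m * D v := ord_eq_mul_kummerDivisor H hdvd'
  have hdeg : Divisor.degree D = 0 := degree_kummerDivisor H hu0 hm hdvd'
  have hD : ∀ v : Place K F, D v ≠ 0 →
      (∃ s ∈ T, 0 < v.ord (t - algebraMap K F s)) ∨ (0 < 1 ∧ v.ord t < 0) := by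
    intro v hv
    by_cases hvt : 0 ≤ v.ord t
    · left
      refine hT v ?_ hvt
      rw [← ord_div ha hb, hdiv v]
      have hm' : (m : ℤ) ≠ 0 := by exact_mod_cast hm
      exact mul_ne_zero hm' hv
    · exact Or.inr ⟨one_pos, not_le.mp hvt⟩
  set S : Setup K F := Setup.ofChartTwo H t T 1 t2 ht2 D hD with hS
  have hn : 0 < Module.finrank K⟮t⟯ F := by
    have : FiniteDimensional K⟮t⟯ F := H.fd t ht
    exact Module.finrank_pos
  have hg0 : 0 ≤ genusRR K F := genusRR_nonneg H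
  have h1 : Divisor.degree S.E1 = (((T.card + 1) * Module.finrank K⟮t⟯ F : ℕ) : ℤ) :=
    Setup.degree_ofChartTwo_E1' H t T 1 t2 ht2 D hD ht
  have h2 : Divisor.degree S.E2 = ((Module.finrank K⟮t⟯ F : ℕ) : ℤ) :=
    Setup.degree_ofChartTwo_E2 H t T 1 t2 ht2 D hD ht
  have hgn : genusRR K F ≤ ((genusRR K F).toNat : ℤ) := Int.self_le_toNat _
  have hts : t - algebraMap K F t2 ≠ 0 := by
    intro h0
    apply ht
    rw [sub_eq_zero.mp h0]
    exact isAlgebraic_algebraMap t2
  refine ⟨S.toGenSide ((T.card + 1) * Module.finrank K⟮t⟯ F) (Module.finrank K⟮t⟯ F)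
    (genusRR K F).toNat m (a / b) h1 h2 (Nat.mul_pos (Nat.succ_pos _) hn) hn hgn hdeg hdiv,
    rfl, rfl, rfl, rfl, Int.toNat_of_nonneg hg0, fun a' b' => ?_, ?_, ?_⟩
  · have := Setup.L_ofChartTwo_eq_Lspace x₀ H ht T 1 t2 ht2 D hD a' b'
    rw [mul_one] at this
    exact this
  · intro b' x hx
    exact mul_pow_mem_rr_pole H t2 hts D b' hx
  · intro a' b' x hx h1x h2x P
    have hxP := S.ord_eq_neg_D hx h1x h2x hdeg P
    have e : P.ord a - P.ord b = m * D P := by rw [← ord_div ha hb, hdiv P]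
    rw [hxP, e]
    have : S.D = D := rfl
    rw [this]
    ring_nf
    exact le_refl _

variable {k κ : Type*} [Field k] [CommRing κ] [Algebra k κ] {ι : Type*}
variable {A : ValuationSubring K} {W : ι → ValuationSubring F} {π : A →+* k} {rd : F → κ}

include x₀ in
/-- **The two-valuation Kummer chain** (twin of `KummerRedData.kummer_chain`), with the
special-fibre half in hypothesis form: for every finite set `T` of `t`-values one can choose `t2`
such that every generic half `G` with the listed properties has a `SpecialSide`. -/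
theorem kummer_fam [Finite ι] [Nonempty ι] (h : ResFam A W π rd) (horth : OrthFam A W)
    (hrank1 : ∀ x c : K, x ∈ A → A.valuation x < 1 → c ≠ 0 →
      ∃ n : ℕ, A.valuation (x ^ n) ≤ A.valuation c)
    {t : F} (htK : Transcendental K t)
    {m : ℕ} (hm0 : m ≠ 0) (hm : ∀ i, (W i).valuation (m : F) = 1)
    {a b : F} (ha : a ≠ 0) (hb : b ≠ 0) (hu : ∀ i, (W i).valuation (a / b - 1) < 1)
    (hdvd : ∀ P : Place K F, (m : ℤ) ∣ P.ord a - P.ord b)
    (hside : ∀ T : Finset K, ∃ t2 : K, t2 ∉ T ∧ ∀ G : Inst.GenSide K F,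
      G.m = m → G.u = a / b →
      G.d1 = (T.card + 1) * Module.finrank K⟮t⟯ F → G.d2 = Module.finrank K⟮t⟯ F →
      (G.g : ℤ) = @genusRR K F _ _ _ (Fermat.Agent.GJ.FF.finiteResidues x₀)
        (hasPrincipalDivisors_gen x₀) (Fermat.Agent.GJ.FF.nonempty_place x₀) →
      (∀ a' b' : ℕ, G.L a' b' = Lspace K t (weight T t2 a' b') (a' : ℤ)) →
      (∀ (b' : ℕ) (x : F), x ∈ G.LD b' →
        x * (t - algebraMap K F t2) ^ b' ∈
          @LDinf K F _ _ _ (Fermat.Agent.GJ.FF.finiteResidues x₀) (hyp_of_isGen x₀)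
            t (a / b) m b') →
      Nonempty (SpecialSide A W π rd G)) :
    ∃ v : F, v ≠ 0 ∧ a = b * v ^ m := by
  have hFR : FiniteResidues K F := Fermat.Agent.GJ.FF.finiteResidues x₀
  have hPD : HasPrincipalDivisors K F := hasPrincipalDivisors_gen x₀
  obtain ⟨T, hT⟩ := exists_valueSet_pair x₀ htK ha hb
  obtain ⟨t2, ht2T, hG⟩ := hside T
  obtain ⟨G, hGm, hGu, hGd1, hGd2, hGg, hGL, hGLD, hGsec⟩ :=
    exists_genSide_fam x₀ htK hm0 ha hb hdvd T hT t2 ht2T
  obtain ⟨S⟩ := hG G hGm hGu hGd1 hGd2 hGg hGL hGLD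
  obtain ⟨a', b', x, hx0, hx1, hx2⟩ := exists_section_of_sides h horth hrank1 G S
    (by rw [hGm]; exact hm) (by rw [hGu]; exact hu)
  exact Fermat.Agent.GJ.J1.KummerFinish.kummer_finish (fun P => deg_pos P)
    (fun g _ h0 => Fermat.Agent.GJ.FF.Fibre.exists_const_of_forall_ord_eq_zero' x₀ h0)
    hm0 ha hb hx0 (hGsec a' b' x hx0 hx1 hx2)

end Gen

end Fermat.Agent.GK.Lattice
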