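/-
GATE-L PREP / GATE-K hedge (helper33): **the core of Claim 2 for a FINITE FAMILY of valuations.**

`claim2_core_fam` is helper30's `Claim2.claim2_core` (`GK/SS/Claim2Core.lean`, two reduction data
`R1 R2`, `ball2`, `red2`) PORTED to helper39's family framework (`GK/Lattice/ResFam.lean`,
`AbsCoreFam.lean`, `KummerFam.lean`): a finite family `W i` of valuation subrings of `F` over
`A ⊂ K`, an abstract reduction map `rd : F → κ` into ANY commutative `k`-algebra `κ`
(`κ = k₁ × k₂` in GATE-K, `κ = k₁ × k₂ × k₃⁺ × k₃⁻` in the HYBRID design of GATE-L), and a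
cusp-only graded family `P.T n` on `κ` (`Twist.ChartPair k κ`, `GK/Core/TwistLt.lean`).

It produces the special-fibre half `SpecialSide` that `kummer_fam` has in hypothesis form
(`hside`), with `Lt a b := Q.Lt a b` the unit twist of `P.T` by
`p₁ = ∏_{σ} (s - σ)^{mult σ}`, `p₂ = s - t₂` (`s = rd t`).

* `resImg`, `multOf`, `bigOf`, `sum_multOf_add_bigOf`, `exists_t2_fam` : residue bookkeeping of a
  finite set `T ⊂ K` relative to `(A, π)` (twin of `KummerRedData.mult/big/resImage/exists_t2`);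
* `rd_algebraMap`, `rd_phi`, `rd_Phi1`, `rd_sub_const` : reductions of the twisting functions;
* `pow_mul_mem_Lfib_of_mem_LDinf` : `X ∈ L((1/m) div y + n (t)_∞) ⟹ X^m y ∈ L(m n (t)_∞)`;
* `specialSide_of_chartPair` : the `SpecialSide` of a `GenSide` with the properties exported by
  `exists_genSide_fam`;
* **`claim2_core_fam`** : inputs `P hs hunit hTfin hT g' c0 hg' hdimT hLam` EXACTLY as in
  `claim2_core` with `ball2 R1 R2 ↦ ⋂ i, W i`, `red2 ↦ rd`; output `y = v ^ m`.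
-/
import Fermat.Agent.GK.Lattice.KummerFam
import Fermat.Agent.GK.SS.Claim2Core
import Fermat.Agent.GK.Core.TwistLt

set_option autoImplicit false

noncomputable section

open AlgebraicCurve IntermediateField Module

namespace Fermat.Agent.GK.Lattice.Claim2Fam

open Fermat.Agent.GJ.J1 Fermat.Agent.GJ.J1.InstGen Fermat.Agent.GJ.FF.PrincipalOf
  Fermat.Agent.RRh45 Fermat.Agent.RR.Bound Fermat.Agent.GJ.J1.G1 Fermat.Agent.S24
  Fermat.Agent.GJ.J1.AbsCore Fermat.Agent.GK.Core.Twist Fermat.Agent.GK.SS.Claim2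
  Fermat.Agent.GK.Lattice

variable {K F : Type*} [Field K] [Field F] [Algebra K F]
variable {k κ : Type*} [Field k] [CommRing κ] [Algebra k κ]
variable {ι : Type*}
variable {A : ValuationSubring K} {W : ι → ValuationSubring F} {π : A →+* k} {rd : F → κ}

/-! ### Residue bookkeeping of a finite set of constants -/

section Mult

variable (π)

open Classical in
/-- the residues of `T ∩ A` -/
def resImg (T : Finset K) : Finset k := (T.filter fun c => c ∈ A).image (piK π)

open Classical in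
/-- number of `c ∈ T ∩ A` reducing to `σ` -/
def multOf (T : Finset K) (σ : k) : ℕ := (T.filter fun c => c ∈ A ∧ piK π c = σ).card

variable (A) in
open Classical in
/-- number of `c ∈ T` outside `A` -/
def bigOf (T : Finset K) : ℕ := (T.filter fun c => c ∉ A).card

theorem mem_resImg {T : Finset K} {σ : k} :
    σ ∈ resImg π T ↔ ∃ c ∈ T, c ∈ A ∧ piK π c = σ := by
  classical
  unfold resImg
  rw [Finset.mem_image]
  constructor
  · rintro ⟨c, hc, rfl⟩
    rw [Finset.mem_filter] at hc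
    exact ⟨c, hc.1, hc.2, rfl⟩
  · rintro ⟨c, hcT, hcA, rfl⟩
    exact ⟨c, Finset.mem_filter.mpr ⟨hcT, hcA⟩, rfl⟩

theorem sum_multOf_add_bigOf (T : Finset K) :
    ∑ σ ∈ resImg π T, multOf π T σ + bigOf A T = T.card := by
  classical
  have h1 : (T.filter fun c => c ∈ A).card =
      ∑ σ ∈ resImg π T, ((T.filter fun c => c ∈ A).filter fun c => piK π c = σ).card :=
    Finset.card_eq_sum_card_fiberwise fun c hc => Finset.mem_image_of_mem _ hc
  have h3 := Finset.card_filter_add_card_filter_not (s := T) (fun c => c ∈ A)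
  unfold multOf bigOf
  rw [← h3, h1]
  congr 1
  exact Finset.sum_congr rfl fun σ _ => by rw [Finset.filter_filter]

end Mult

/-- choice of `t₂`: integral, outside `T`, with residue different from all residues of `T ∩ A` -/
theorem exists_t2_fam [Infinite k] (h : ResFam A W π rd) (T : Finset K) :
    ∃ t2 : K, t2 ∈ A ∧ t2 ∉ T ∧ piK π t2 ∉ resImg π T := by
  obtain ⟨σ, hσ⟩ := Infinite.exists_notMem_finset (resImg π T)
  obtain ⟨c, hcA, hc⟩ := h.piK_surj σ
  refine ⟨c, hcA, fun hcT => ?_, by rw [hc]; exact hσ⟩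
  exact hσ ((mem_resImg π).mpr ⟨c, hcT, hcA, hc⟩)

/-! ### Reductions of the twisting functions -/

section Rd

variable (h : ResFam A W π rd)
include h

theorem algebraMap_mem {c : K} (hc : c ∈ A) : ∀ i, algebraMap K F c ∈ W i :=
  fun i => (h.algebraMap_mem_iff i c).2 hc

theorem rd_algebraMap {c : K} (hc : c ∈ A) :
    rd (algebraMap K F c) = algebraMap k κ (piK π c) := by
  have h1 := h.rd_smul' hc (x := (1 : F)) (fun i => (W i).one_mem)
  rw [h.rd_one, Algebra.smul_def, mul_one] at h1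
  rw [h1, Algebra.algebraMap_eq_smul_one]

theorem rd_pow' {x : F} (hx : ∀ i, x ∈ W i) (n : ℕ) : rd (x ^ n) = rd x ^ n := by
  induction n with
  | zero => rw [pow_zero, pow_zero, h.rd_one]
  | succ n ih =>
    rw [pow_succ, pow_succ, h.rd_mul _ _ (fun i => pow_mem (hx i) n) hx, ih]

omit h in
theorem prod_mem_fam {J : Type*} (s : Finset J) (f : J → F) (hf : ∀ j ∈ s, ∀ i, f j ∈ W i) :
    ∀ i, ∏ j ∈ s, f j ∈ W i := fun i => prod_mem fun j hj => hf j hj i

theorem rd_prod {J : Type*} (s : Finset J) (f : J → F) (hf : ∀ j ∈ s, ∀ i, f j ∈ W i) :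
    rd (∏ j ∈ s, f j) = ∏ j ∈ s, rd (f j) := by
  classical
  induction s using Finset.induction_on with
  | empty => simp [h.rd_one]
  | insert a s ha ih =>
    rw [Finset.prod_insert ha, Finset.prod_insert ha,
      h.rd_mul _ _ (hf a (Finset.mem_insert_self a s))
        (prod_mem_fam s f fun j hj => hf j (Finset.mem_insert_of_mem hj)),
      ih fun j hj => hf j (Finset.mem_insert_of_mem hj)]

theorem sub_const_mem {t : F} (htW : ∀ i, t ∈ W i) {c : K} (hc : c ∈ A) :
    ∀ i, t - algebraMap K F c ∈ W i := fun i => sub_mem (htW i) (algebraMap_mem h hc i)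

theorem rd_sub_const {t : F} (htW : ∀ i, t ∈ W i) {c : K} (hc : c ∈ A) :
    rd (t - algebraMap K F c) = rd t - algebraMap k κ (piK π c) := by
  rw [h.rd_sub htW (algebraMap_mem h hc), rd_algebraMap h hc]

theorem phi_mem {t : F} (htW : ∀ i, t ∈ W i) (c : K) : ∀ i, phi A t c ∈ W i := by
  intro i
  unfold phi
  split_ifs with hc
  · exact sub_const_mem h htW hc i
  · have hinv : c⁻¹ ∈ A := (A.mem_or_inv_mem c).resolve_left hc
    exact sub_mem (W i).one_mem ((W i).mul_mem _ _ (algebraMap_mem h hinv i) (htW i))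

open Classical in
theorem rd_phi {t : F} (htW : ∀ i, t ∈ W i) (c : K) :
    rd (phi A t c) = if c ∈ A then rd t - algebraMap k κ (piK π c) else 1 := by
  by_cases hc : c ∈ A
  · rw [if_pos hc]
    unfold phi
    rw [if_pos hc]
    exact rd_sub_const h htW hc
  · rw [if_neg hc]
    unfold phi
    rw [if_neg hc]
    have hinv : c⁻¹ ∈ A := (A.mem_or_inv_mem c).resolve_left hc
    have hlt : A.valuation c⁻¹ < 1 := by
      rw [map_inv₀]
      have : 1 < A.valuation c := by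
        rw [← not_le, ValuationSubring.valuation_le_one_iff]; exact hc
      exact inv_lt_one_of_one_lt₀ this
    have hpi : piK π c⁻¹ = 0 := (h.piK_eq_zero_iff hinv).2 hlt
    have hmul : ∀ i, algebraMap K F c⁻¹ * t ∈ W i :=
      fun i => (W i).mul_mem _ _ (algebraMap_mem h hinv i) (htW i)
    rw [h.rd_sub (fun i => (W i).one_mem) hmul, h.rd_one,
      h.rd_mul _ _ (algebraMap_mem h hinv) htW, rd_algebraMap h hinv, hpi, map_zero, zero_mul,
      sub_zero]

theorem Phi1_mem {t : F} (htW : ∀ i, t ∈ W i) (T : Finset K) : ∀ i, Phi1 A t T ∈ W i :=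
  prod_mem_fam T _ fun c _ => phi_mem h htW c

theorem rd_Phi1 {t : F} (htW : ∀ i, t ∈ W i) (T : Finset K) :
    rd (Phi1 A t T) =
      ∏ σ ∈ resImg π T, (rd t - algebraMap k κ σ) ^ multOf π T σ := by
  classical
  unfold Phi1
  rw [rd_prod h T _ fun c _ => phi_mem h htW c]
  simp only [rd_phi h htW]
  rw [← Finset.prod_filter]
  rw [Finset.prod_comp (fun σ => rd t - algebraMap k κ σ) (piK π)]
  unfold resImg
  refine Finset.prod_congr rfl fun σ _ => ?_
  congr 1
  unfold multOf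
  rw [Finset.filter_filter]

theorem rd_twist {x Φ1 Φ2 : F} (hx : ∀ i, x ∈ W i) (h1 : ∀ i, Φ1 ∈ W i) (h2 : ∀ i, Φ2 ∈ W i)
    (a b : ℕ) : rd (x * Φ1 ^ a * Φ2 ^ b) = rd x * rd Φ1 ^ a * rd Φ2 ^ b := by
  have h1a : ∀ i, Φ1 ^ a ∈ W i := fun i => pow_mem (h1 i) a
  have h2b : ∀ i, Φ2 ^ b ∈ W i := fun i => pow_mem (h2 i) b
  rw [h.rd_mul _ _ (fun i => (W i).mul_mem _ _ (hx i) (h1a i)) h2b, h.rd_mul _ _ hx h1a,
    rd_pow' h h1, rd_pow' h h2]

/-- `m` is a unit for every `W i` when it is nonzero in the residue field -/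
theorem val_natCast_eq_one {m : ℕ} (hm : (m : k) ≠ 0) (i : ι) :
    (W i).valuation ((m : ℕ) : F) = 1 := by
  have hmA : ((m : ℕ) : K) ∈ A := natCast_mem A m
  have hpi : piK π ((m : ℕ) : K) = (m : k) := by
    rw [piK_of_mem hmA]
    have : (⟨((m : ℕ) : K), hmA⟩ : A) = ((m : ℕ) : A) := Subtype.ext (by simp)
    rw [this, map_natCast]
  have hnlt : ¬ A.valuation ((m : ℕ) : K) < 1 := by
    rw [← h.piK_eq_zero_iff hmA, hpi]
    exact hm
  have e : ((m : ℕ) : F) = algebraMap K F ((m : ℕ) : K) := (map_natCast (algebraMap K F) m).symm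
  rw [e]
  refine le_antisymm ((h.val_le_one_iff i _).2 (A.valuation_le_one_iff _ |>.2 hmA)) ?_
  rw [← not_lt, h.val_lt_one_iff i]
  exact hnlt

end Rd

/-! ### From the Kummer polar family at infinity to `Lfib` -/

section Gen

variable [IsAlgClosed K] (x₀ : F) [IsGen K x₀]

include x₀ in
/-- `X ∈ L((1/m) div y + n (t)_∞) ⟹ X ^ m * y ∈ L(m n (t)_∞)`. -/
theorem pow_mul_mem_Lfib_of_mem_LDinf {t : F} (ht : Transcendental K t) {m : ℕ} (hm : m ≠ 0)
    {y : F} (hy : y ≠ 0) (hdvd : ∀ v : Place K F, (m : ℤ) ∣ v.ord y) {n : ℕ} {X : F}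
    (hX : X ∈ @LDinf K F _ _ _ (Fermat.Agent.GJ.FF.finiteResidues x₀) (hyp_of_isGen x₀)
      t y m n) :
    X ^ m * y ∈ Lfib K t ((m * n : ℕ) : ℤ) := by
  have hFR : FiniteResidues K F := Fermat.Agent.GJ.FF.finiteResidues x₀
  by_cases hX0 : X = 0
  · rw [hX0, zero_pow hm, zero_mul]
    exact zero_mem _
  have hne : X ^ m * y ≠ 0 := mul_ne_zero (pow_ne_zero m hX0) hy
  rw [Fermat.Agent.GJ.J1.PlaceLattice.mem_Lfib_iff_ord x₀ ht _ hne]
  intro v
  have hv := (mem_LDinf_iff (hyp_of_isGen x₀)).1 hX v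
  have h1 := neg_le_ord_of_vle hX0 hv
  have hord : v.ord (X ^ m * y) = (m : ℤ) * v.ord X + v.ord y := by
    rw [v.ord_mul (pow_ne_zero m hX0) hy, InstGen.ord_pow]
  obtain ⟨q, hq⟩ := hdvd v
  have hm' : (0 : ℤ) < m := by exact_mod_cast Nat.pos_of_ne_zero hm
  rw [hq, Int.mul_ediv_cancel_left _ hm'.ne'] at h1
  rw [hord, hq]
  refine ⟨fun hv0 => ?_, fun hv0 => ?_⟩
  · rw [max_eq_right (by omega)] at h1
    have : 0 ≤ v.ord X + q := by linarith
    nlinarith
  · rw [max_eq_left (by omega)] at h1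
    have h2 : 0 ≤ v.ord X + q - n * v.ord t := by linarith
    have h3 := mul_nonneg hm'.le h2
    push_cast
    nlinarith

end Gen

/-! ### The special side of a chart pair -/

section Side

variable [IsAlgClosed K] (x₀ : F) [IsGen K x₀]

include x₀ in
/-- **The special-fibre half of the Kummer core from a cusp-only graded family.**
For a generic half `G` with the properties exported by `exists_genSide_fam`. -/
theorem specialSide_of_chartPair (h : ResFam A W π rd)
    {t : F} (htW : ∀ i, t ∈ W i) (htK : Transcendental K t)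
    (P : ChartPair k κ) (hs : P.s = rd t)
    (hunit : ∀ c : k, IsUnit (P.s - algebraMap k κ c))
    (hTfin : ∀ n, FiniteDimensional k (P.T n))
    (hT : ∀ (n : ℕ) (x : F), (∀ i, x ∈ W i) → x ∈ Lfib K t (n : ℤ) → rd x ∈ P.T n)
    (g' c0 : ℕ)
    (hg' : @genusRR K F _ _ _ (Fermat.Agent.GJ.FF.finiteResidues x₀)
        (hasPrincipalDivisors_gen x₀) (Fermat.Agent.GJ.FF.nonempty_place x₀) ≤ (g' : ℤ))
    (hdimT : ∀ n, c0 ≤ n → finrank k (P.T n) + g' ≤ n * finrank K⟮t⟯ F + 1)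
    {m : ℕ} (hm0 : m ≠ 0) {y : F} (hy0 : y ≠ 0)
    (hdvd : ∀ v : Place K F, (m : ℤ) ∣ v.ord y)
    (hLam : ∀ b : ℕ, c0 ≤ b → ∀ x : F, (∀ i, x ∈ W i) →
      x ^ m * y ∈ Lfib K t ((m * b : ℕ) : ℤ) → rd x ∈ P.T b)
    (T : Finset K) {t2 : K} (ht2A : t2 ∈ A) (ht2T : t2 ∉ T) (ht2img : piK π t2 ∉ resImg π T)
    (G : Inst.GenSide K F)
    (hGd1 : G.d1 = (T.card + 1) * Module.finrank K⟮t⟯ F) (hGd2 : G.d2 = Module.finrank K⟮t⟯ F)
    (hGg : (G.g : ℤ) = @genusRR K F _ _ _ (Fermat.Agent.GJ.FF.finiteResidues x₀)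
        (hasPrincipalDivisors_gen x₀) (Fermat.Agent.GJ.FF.nonempty_place x₀))
    (hGL : ∀ a' b' : ℕ, G.L a' b' = Lspace K t (weight T t2 a' b') (a' : ℤ))
    (hGLD : ∀ (b' : ℕ) (x : F), x ∈ G.LD b' →
        x * (t - algebraMap K F t2) ^ b' ∈
          @LDinf K F _ _ _ (Fermat.Agent.GJ.FF.finiteResidues x₀) (hyp_of_isGen x₀)
            t y m b') :
    Nonempty (SpecialSide A W π rd G) := by
  classical
  have H : Hyp K F := hyp_of_isGen x₀
  have htc : ∀ c : K, t ≠ algebraMap K F c := fun c hc => htK (hc ▸ isAlgebraic_algebraMap c)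
  have hn : 0 < finrank K⟮t⟯ F := by
    have : FiniteDimensional K⟮t⟯ F := H.fd t htK
    exact Module.finrank_pos
  -- the twisting pair
  set Q : TwistPair P :=
    P.ofRoots (resImg π T) (multOf π T) (1 + bigOf A T) (piK π t2) ht2img hunit with hQ
  have he1 : Q.e1 = T.card + 1 := by
    rw [hQ, ChartPair.ofRoots_e1]
    have := sum_multOf_add_bigOf π T
    omega
  have he2 : Q.e2 = 1 := rfl
  have hΦ1W : ∀ i, Phi1 A t T ∈ W i := Phi1_mem h htW T
  have hΦ2W : ∀ i, t - algebraMap K F t2 ∈ W i := sub_const_mem h htW ht2A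
  have hp1 : Q.p1 = rd (Phi1 A t T) := by
    rw [hQ, ChartPair.ofRoots_p1, rd_Phi1 h htW, hs]
  have hp2 : Q.p2 = rd (t - algebraMap K F t2) := by
    rw [hQ, ChartPair.ofRoots_p2, rd_sub_const h htW ht2A, hs]
  have hgle : G.g ≤ g' := by
    have : (G.g : ℤ) ≤ (g' : ℤ) := hGg ▸ hg'
    exact_mod_cast this
  refine ⟨{
    Lt := Q.Lt
    c := c0 * finrank K⟮t⟯ F
    Lt_mono := fun ha hb => Q.Lt_mono ha hb
    Lt_fin := Q.Lt_fin hTfin
    red_L := ?_
    red_LD := ?_
    one_mem_Lt := Q.one_mem_Lt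
    dim_Lt := ?_
    Lt_inf := Q.Lt_inf }⟩
  · -- `red_L`
    intro a b x hx hxW
    rw [hGL] at hx
    have h1 := twist_L (A := A) htc T t2 ht2T a b hx
    have hXW : ∀ i, x * Phi1 A t T ^ a * (t - algebraMap K F t2) ^ b ∈ W i := fun i =>
      (W i).mul_mem _ _ ((W i).mul_mem _ _ (hxW i) (pow_mem (hΦ1W i) a)) (pow_mem (hΦ2W i) b)
    have h2 := hT (a * (T.card + 1) + b) _ hXW h1
    rw [Q.mem_Lt', he1, he2, mul_one, hp1, hp2]
    rw [rd_twist h hxW hΦ1W hΦ2W] at h2
    exact h2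
  · -- `red_LD`
    intro b hb x hx hxW
    rw [hGd2] at hb
    have hb' : c0 ≤ b := Nat.le_of_mul_le_mul_right hb hn
    have h1 := pow_mul_mem_Lfib_of_mem_LDinf x₀ htK hm0 hy0 hdvd (hGLD b x hx)
    have hXW : ∀ i, x * (t - algebraMap K F t2) ^ b ∈ W i := fun i =>
      (W i).mul_mem _ _ (hxW i) (pow_mem (hΦ2W i) b)
    have h2 := hLam b hb' _ hXW h1
    rw [Q.mem_Lt_zero_left, he2, mul_one, hp2]
    rw [h.rd_mul _ _ hxW (fun i => pow_mem (hΦ2W i) b), rd_pow' h hΦ2W] at h2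
    exact h2
  · -- `dim_Lt`
    intro a b hcab
    rw [hGd1, hGd2] at hcab ⊢
    have := Q.dim_Lt (d := finrank K⟮t⟯ F) (g := g') (c0 := c0) hn hdimT a b
      (by rw [he1, he2, one_mul]; exact hcab)
    rw [he1, he2, one_mul] at this
    omega

include x₀ in
/-- **Claim 2, core form, for a finite family of valuations.**  If the reductions of
`Lfib K t n ∩ ⋂ W i` land in the cusp-only graded family `P.T n` (with the Riemann upper bound)
and, for the unit `y ≡ 1` (all `W i`) with `m ∣ div y`, the reductions of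
`L((1/m) div y + b (t)_∞) ∩ ⋂ W i` land in `P.T b` too for `b ≥ c0` (all glueing constants of `y`
are `1`), then `y` is an `m`-th power. -/
theorem claim2_core_fam [Infinite k] [Finite ι] [Nonempty ι] (h : ResFam A W π rd)
    (horth : OrthFam A W)
    (hrank1 : ∀ x c : K, x ∈ A → A.valuation x < 1 → c ≠ 0 →
      ∃ n : ℕ, A.valuation (x ^ n) ≤ A.valuation c)
    {t : F} (htW : ∀ i, t ∈ W i) (htK : Transcendental K t)
    (P : ChartPair k κ) (hs : P.s = rd t)
    (hunit : ∀ c : k, IsUnit (P.s - algebraMap k κ c))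
    (hTfin : ∀ n, FiniteDimensional k (P.T n))
    (hT : ∀ (n : ℕ) (x : F), (∀ i, x ∈ W i) → x ∈ Lfib K t (n : ℤ) → rd x ∈ P.T n)
    (g' c0 : ℕ)
    (hg' : @genusRR K F _ _ _ (Fermat.Agent.GJ.FF.finiteResidues x₀)
        (hasPrincipalDivisors_gen x₀) (Fermat.Agent.GJ.FF.nonempty_place x₀) ≤ (g' : ℤ))
    (hdimT : ∀ n, c0 ≤ n → finrank k (P.T n) + g' ≤ n * finrank K⟮t⟯ F + 1)
    {m : ℕ} (hm : (m : k) ≠ 0) {y : F} (hy1 : ∀ i, (W i).valuation (y - 1) < 1)
    (hdvd : ∀ v : Place K F, (m : ℤ) ∣ v.ord y)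
    (hLam : ∀ b : ℕ, c0 ≤ b → ∀ x : F, (∀ i, x ∈ W i) →
      x ^ m * y ∈ Lfib K t ((m * b : ℕ) : ℤ) → rd x ∈ P.T b) :
    ∃ v : F, v ≠ 0 ∧ y = v ^ m := by
  have hm0 : m ≠ 0 := by
    rintro rfl
    simp at hm
  have hy0 : y ≠ 0 := by
    rintro rfl
    obtain ⟨i⟩ := ‹Nonempty ι›
    have := hy1 i
    rw [zero_sub, Valuation.map_neg, map_one] at this
    exact lt_irrefl _ this
  have hy1' : ∀ i, (W i).valuation (y / 1 - 1) < 1 := by
    intro i; rw [div_one]; exact hy1 i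
  have hdvd' : ∀ v : Place K F, (m : ℤ) ∣ v.ord y - v.ord (1 : F) := by
    intro v; rw [v.ord_one, sub_zero]; exact hdvd v
  have hside : ∀ T : Finset K, ∃ t2 : K, t2 ∉ T ∧ ∀ G : Inst.GenSide K F,
      G.m = m → G.u = y / 1 →
      G.d1 = (T.card + 1) * Module.finrank K⟮t⟯ F → G.d2 = Module.finrank K⟮t⟯ F →
      (G.g : ℤ) = @genusRR K F _ _ _ (Fermat.Agent.GJ.FF.finiteResidues x₀)
        (hasPrincipalDivisors_gen x₀) (Fermat.Agent.GJ.FF.nonempty_place x₀) →
      (∀ a' b' : ℕ, G.L a' b' = Lspace K t (weight T t2 a' b') (a' : ℤ)) →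
      (∀ (b' : ℕ) (x : F), x ∈ G.LD b' →
        x * (t - algebraMap K F t2) ^ b' ∈
          @LDinf K F _ _ _ (Fermat.Agent.GJ.FF.finiteResidues x₀) (hyp_of_isGen x₀)
            t (y / 1) m b') →
      Nonempty (SpecialSide A W π rd G) := by
    intro T
    obtain ⟨t2, ht2A, ht2T, ht2img⟩ := exists_t2_fam h T
    refine ⟨t2, ht2T, fun G _ _ hGd1 hGd2 hGg hGL hGLD => ?_⟩
    refine specialSide_of_chartPair x₀ h htW htK P hs hunit hTfin hT g' c0 hg' hdimT hm0 hy0 hdvd
      hLam T ht2A ht2T ht2img G hGd1 hGd2 hGg hGL ?_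
    intro b' x hx
    have := hGLD b' x hx
    rwa [div_one] at this
  obtain ⟨v, hv0, hv⟩ := kummer_fam x₀ h horth hrank1 htK hm0 (val_natCast_eq_one h hm) hy0
    one_ne_zero hy1' hdvd' hside
  exact ⟨v, hv0, by rw [hv, one_mul]⟩

end Side

end Fermat.Agent.GK.Lattice.Claim2Fam
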